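import Fermat.Agent.LevelMatch.Node
import Fermat.Agent.LocalEC.Nodal

/-!
Torsion of a semistable curve at a bad prime: inertia and Frobenius.
-/

set_option autoImplicit false
set_option linter.style.haveILetI false

noncomputable section

open scoped Classical WeierstrassCurve.Affine
open WeierstrassCurve WeierstrassCurve.Affine IsLocalRing

namespace FLTAgent.LevelMatch

local notation "QQb" => AlgebraicClosure ℚ
local notation "GG" => (AlgebraicClosure ℚ ≃ₐ[ℚ] AlgebraicClosure ℚ)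

open FLTAgent.LocalEC FLTAgent.FrobTrace

variable {A : ValuationSubring (AlgebraicClosure ℚ)} {W : WeierstrassCurve ℤ}

/-- The Galois action on points is the action on coordinates. -/
theorem smul_bar_some (σ : GG) {x y : QQb} (h : (barCurve W).Nonsingular x y) :
    ∃ h', σ • Point.some x y h = (Point.some (σ x) (σ y) h' : (barCurve W).Point) :=
  ⟨_, rfl⟩

theorem psi_bar_map (σ : GG) (x y : QQb) :
    psi (barCurve W) (σ x) (σ y) = σ (psi (barCurve W) x y) := by
  simp [psi, WeierstrassCurve.map, map_add, map_mul, map_ofNat]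

theorem tanNum_bar_map (σ : GG) (x y : QQb) :
    tanNum (barCurve W) (σ x) (σ y) = σ (tanNum (barCurve W) x y) := by
  simp [tanNum, WeierstrassCurve.map, map_add, map_mul, map_ofNat, map_pow]

theorem inE0_iff_val {K : Type*} [Field K] {B : ValuationSubring K}
    {V : WeierstrassCurve.Affine K} (hV : IntCoeff B V) {x y : K} (h : V.Nonsingular x y) :
    InE0 hV (Point.some x y h) ↔
      x ∉ B ∨ B.valuation (psi V x y) = 1 ∨ B.valuation (tanNum V x y) = 1 := by
  rw [inE0_some_iff]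
  refine or_congr_right' fun hx => ?_
  rw [not_not] at hx
  have hy := hV.y_mem h.1 hx
  have key := hV.redCurve_nonsingular_iff (x := ⟨x, hx⟩) (y := ⟨y, hy⟩) h.1
  exact ⟨fun ⟨_, _, hns⟩ => key.mp hns, fun h' => ⟨hx, hy, key.mpr h'⟩⟩

/-- The decomposition group preserves `E₀`. -/
theorem inE0_smul {σ : GG} (hσ : σ ∈ A.decompositionSubgroup ℚ) {P : (barCurve W).Point}
    (hP : InE0 (intCoeff_barCurve W A) P) : InE0 (intCoeff_barCurve W A) (σ • P) := by
  rcases P with _ | ⟨x, y, h⟩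
  · exact hP
  obtain ⟨h', e⟩ := smul_bar_some σ h
  rw [e, inE0_iff_val, psi_bar_map, tanNum_bar_map, val_map_decomposition hσ,
    val_map_decomposition hσ, mem_iff_of_mem_decomposition hσ]
  exact (inE0_iff_val _ h).mp hP

theorem nsmul_galois (σ : GG) (n : ℕ) (P : (barCurve W).Point) :
    n • (σ • P) = σ • (n • P) :=
  (map_nsmul (DistribSMul.toAddMonoidHom (barCurve W).Point σ) n P).symm

theorem galois_zero (σ : GG) : σ • (0 : (barCurve W).Point) = 0 := rfl

/-- Inertia fixes torsion with nonsingular reduction. -/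
theorem inertia_smul_of_inE0 {σ : GG} (hσ : σ ∈ A.inertiaSubgroupIn ℚ) {n : ℕ}
    (hn : A.valuation (n : QQb) = 1) {P : (barCurve W).Point} (hnP : n • P = 0)
    (hP : InE0 (intCoeff_barCurve W A) P) : σ • P = P := by
  rcases P with _ | ⟨x, y, h⟩
  · rfl
  obtain ⟨h', e⟩ := smul_bar_some σ h
  have h1 := (residueFix_of_mem_inertia hσ).sub_inE1_of_inE0 (intCoeff_barCurve W A) h' hP
  have h2 := eq_zero_of_inE1_of_nsmul (intCoeff_barCurve W A) h1 hn (k := n) (by
    rw [nsmul_sub, hnP, zero_sub, neg_eq_zero]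
    exact (congrArg (n • ·) e.symm).trans ((nsmul_galois σ n _).trans (by rw [hnP]; rfl)))
  rw [e]; exact (sub_eq_zero.mp h2).symm

namespace SemiNode

variable (S : SemiNode W A)
include S

theorem pointMap_surjective (P : (barCurve W).Point) : ∃ P', S.C.pointMap P' = P := by
  rcases P with _ | ⟨x, y, h⟩
  · exact ⟨0, rfl⟩
  obtain ⟨x', y', he, hX, hY⟩ := S.C.exists_preimage h.1
  refine ⟨Point.some x' y' (S.C.nonsingular_of_map he (by rw [hX, hY]; exact h)), ?_⟩
  rw [S.C.pointMap_some, Point.some.injEq]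
  exact ⟨hX, hY⟩

theorem inE0_pointMap (P' : S.model.Point) :
    InE0 (intCoeff_barCurve W A) (S.C.pointMap P') ↔ InE0 S.node.toIntCoeff P' := by
  rcases P' with _ | ⟨x, y, h⟩
  · exact iff_of_true trivial trivial
  rw [S.C.pointMap_some, inE0_iff_val, inE0_iff_val, S.C.psi_map, S.C.tanNum_map, S.u_eq,
    S.s_eq, S.X_eq, add_mem_cancel_right S.r_mem]
  simp

theorem psi_rt : psi (barCurve W) S.C.r S.C.t = 0 := by
  have := S.C.psi_map 0 0
  rw [S.X_eq, S.Y_eq, zero_add, zero_add] at this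
  rw [this, S.node.psi_eq]; ring

theorem equation_rt : (barCurve W).Equation S.C.r S.C.t := by
  have h := (S.C.equation_iff_map 0 0).mpr (by
    rw [equation_iff, S.node.a₃_eq, S.node.a₆_eq]; ring)
  rwa [S.X_eq, S.Y_eq, zero_add, zero_add] at h

/-- The decomposition group moves the root by at most `a₄`. -/
theorem val_r_sub_le {σ : GG} (hσ : σ ∈ A.decompositionSubgroup ℚ) :
    A.valuation (σ S.C.r - S.C.r) ≤ A.valuation S.model.a₄ := by
  set z := σ S.C.r - S.C.r with hz
  have hzs : A.valuation z < 1 := by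
    have e : z = σ (S.C.r - (S.x₀ : QQb)) - (S.C.r - (S.x₀ : QQb)) := by
      rw [hz, map_sub, map_intCast]; ring
    rw [e]
    exact A.valuation.map_sub_lt (by rw [val_map_decomposition hσ]; exact S.r_near) S.r_near
  set w := σ S.C.t - S.C.t
  have hX : S.C.X z = σ S.C.r := by rw [S.X_eq, hz]; ring
  have hY : S.C.Y z w = σ S.C.t := by rw [S.Y_eq]; simp [w]
  have he : S.model.Equation z w := by
    rw [← S.C.equation_iff_map, hX, hY]
    have := S.equation_rt
    rw [equation_iff] at this ⊢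
    have := congrArg σ this
    simpa [WeierstrassCurve.map, map_add, map_mul, map_pow] using this
  have hp : psi S.model z w = 0 := by
    have := S.C.psi_map z w
    rw [hX, hY, psi_bar_map, S.psi_rt, map_zero, S.u_eq, one_pow, one_mul] at this
    exact this.symm
  have e := psi_sq he
  rw [hp, S.node.b₄_eq, S.node.b₆_eq] at e
  rcases eq_or_ne z 0 with h0 | h0
  · rw [h0, map_zero]; exact zero_le
  have e' : z * (4 * z + S.model.b₂) = -(4 * S.model.a₄) := by
    apply mul_left_cancel₀ h0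
    linear_combination -e
  have := congrArg A.valuation e'
  rw [Valuation.map_neg, map_mul, map_mul, A.valuation.map_add_eq_of_lt_right ?_,
    S.node.b₂_unit, mul_one] at this
  · rw [this]; exact mul_le_of_le_one_left' (val_le_one (natCast_mem A 4))
  · rw [S.node.b₂_unit, map_mul]
    exact (mul_le_of_le_one_left' (val_le_one (natCast_mem A 4))).trans_lt hzs

/-- For odd torsion, the decomposition group is `±1` modulo `E₀`. -/
theorem inE0_smul_sub_or_add {σ : GG} (hσ : σ ∈ A.decompositionSubgroup ℚ) {n : ℕ} (hn : Odd n)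
    {T : (barCurve W).Point} (hT : n • T = 0) :
    InE0 (intCoeff_barCurve W A) (σ • T - T) ∨ InE0 (intCoeff_barCurve W A) (σ • T + T) := by
  by_cases h0 : InE0 (intCoeff_barCurve W A) T
  · left
    exact sub_mem ((mem_e0Subgroup _).mpr (inE0_smul hσ h0)) ((mem_e0Subgroup _).mpr h0)
  obtain ⟨T', rfl⟩ := S.pointMap_surjective T
  have h0' : ¬InE0 S.node.toIntCoeff T' := fun h => h0 ((S.inE0_pointMap T').mpr h)
  have hu := S.node.u_lt_xVal hn (S.C.pointMap_injective (by
    rw [map_nsmul, hT, map_zero])) h0'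
  have hlt := S.node.not_inE0_iff.mp h0'
  rcases T' with _ | ⟨x, y, h⟩
  · exact absurd trivial h0'
  obtain ⟨h', e⟩ := smul_bar_some σ (S.C.nonsingular_map h)
  obtain ⟨Q', hQ'⟩ := S.pointMap_surjective (σ • S.C.pointMap (Point.some x y h))
  have hx : xVal A Q' = xVal A (Point.some x y h) := by
    have e2 : S.C.pointMap Q' = Point.some (σ (S.C.X x)) (σ (S.C.Y x y)) h' := hQ'.trans e
    rcases Q' with _ | ⟨x', y', h''⟩
    · exact absurd e2.symm (Point.some_ne_zero _)
    rw [S.C.pointMap_some, Point.some.injEq, S.X_eq, S.X_eq, map_add] at e2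
    rw [xVal_some, xVal_some, show x' = σ x + (σ S.C.r - S.C.r) by linear_combination e2.1,
      A.valuation.map_add_eq_of_lt_left, val_map_decomposition hσ]
    rw [val_map_decomposition hσ]
    exact (S.val_r_sub_le hσ).trans_lt (by rwa [xVal_some] at hu)
  rw [← hQ', ← map_sub, ← map_add, S.inE0_pointMap, S.inE0_pointMap]
  rcases S.node.add_or_sub_inE0 hu hlt hx with h1 | h1
  · right; rwa [add_comm]
  · left; rw [← neg_sub]; exact inE0_neg _ h1

/-- There is a nonzero point of order `p` with nonsingular reduction. -/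
theorem exists_inE0_torsion (hW : W.Δ ≠ 0) {p : ℕ} [hp : Fact p.Prime] (hp2 : p ≠ 2) :
    ∃ P : (barCurve W).Point, P ≠ 0 ∧ p • P = 0 ∧ InE0 (intCoeff_barCurve W A) P := by
  haveI : WeierstrassCurve.IsElliptic (W.map (Int.castRingHom ℚ)) := ⟨by
    rw [WeierstrassCurve.map_Δ]; exact isUnit_iff_ne_zero.mpr (by simpa using hW)⟩
  haveI := Torsion.finite_torsionBy_rat (W.map (Int.castRingHom ℚ)) hp.out.ne_zero
  by_contra hcon
  push Not at hcon
  set V := Submodule.torsionBy ℤ ((W.map (Int.castRingHom ℚ))⁄(AlgebraicClosure ℚ)).Point p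
  have hcard : Nat.card V = p ^ 2 :=
    Torsion.card_torsionBy_rat (W.map (Int.castRingHom ℚ)) hp.out.ne_zero
  letI : Fintype V := Fintype.ofFinite V
  have hkey : ∀ P : {P : V // P ≠ 0}, ∃ k : ℕ, k < p ∧ ∀ P', S.C.pointMap P' = (P.1 : (barCurve W).Point) →
      xVal A P' ^ p = A.valuation S.model.a₄ ^ (2 * k) := by
    intro P
    have hP : p • (P.1 : (barCurve W).Point) = 0 := Torsion.mem_torsionBy_iff_nsmul.mp P.1.2
    obtain ⟨P', hP'⟩ := S.pointMap_surjective (P.1 : (barCurve W).Point)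
    have h0 : ¬InE0 S.node.toIntCoeff P' := fun h => hcon _
      (fun e => P.2 (Subtype.ext e)) hP (hP' ▸ (S.inE0_pointMap P').mpr h)
    obtain ⟨k, -, hk, hkv⟩ := S.node.exists_xVal_pow_eq hp2
      (S.C.pointMap_injective (by rw [map_nsmul, hP', hP, map_zero])) h0
    exact ⟨k, by omega, fun Q hQ => by rwa [S.C.pointMap_injective (hQ.trans hP'.symm)]⟩
  choose k hk hkv using hkey
  obtain ⟨k₀, -, hbig⟩ := Finset.exists_lt_card_fiber_of_mul_lt_card_of_maps_to
    (s := (Finset.univ : Finset {P : V // P ≠ 0})) (t := Finset.range p) (n := 2) (f := k)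
    (fun P _ => Finset.mem_range.mpr (hk P)) (by
      rw [Finset.card_range, Finset.card_univ, Fintype.card_subtype_compl, Fintype.card_subtype_eq,
        ← Nat.card_eq_fintype_card, hcard]
      have : 3 ≤ p := hp.out.two_le.lt_of_ne (Ne.symm hp2)
      have := Nat.mul_le_mul_right p this
      rw [sq]; omega)
  obtain ⟨a, b, c, ha, hb, hc, hab, hac, hbc⟩ := Finset.two_lt_card_iff.mp hbig
  simp only [Finset.mem_filter, Finset.mem_univ, true_and] at ha hb hc
  have main : ∀ u v : {P : V // P ≠ 0}, k u = k v → u ≠ v → u.1 + v.1 ≠ 0 → False := by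
    intro u v huv hne hadd
    obtain ⟨u', hu'⟩ := S.pointMap_surjective (u.1 : (barCurve W).Point)
    obtain ⟨v', hv'⟩ := S.pointMap_surjective (v.1 : (barCurve W).Point)
    have hpu : p • (u.1 : (barCurve W).Point) = 0 := Torsion.mem_torsionBy_iff_nsmul.mp u.1.2
    have hpv : p • (v.1 : (barCurve W).Point) = 0 := Torsion.mem_torsionBy_iff_nsmul.mp v.1.2
    have h0 : ¬InE0 S.node.toIntCoeff u' := fun h => hcon _
      (fun e => u.2 (Subtype.ext e)) hpu (hu' ▸ (S.inE0_pointMap u').mpr h)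
    have hx : xVal A v' = xVal A u' := by
      refine (pow_left_inj₀ zero_le zero_le hp.out.ne_zero).mp ?_
      rw [hkv v v' hv', hkv u u' hu', huv]
    rcases S.node.add_or_sub_inE0 (S.node.u_lt_xVal (hp.out.odd_of_ne_two hp2)
      (S.C.pointMap_injective (by rw [map_nsmul, hu', hpu, map_zero])) h0)
      (S.node.not_inE0_iff.mp h0) hx with h1 | h1
    · have h2 := (S.inE0_pointMap _).mpr h1
      rw [map_add, hu', hv'] at h2
      exact hcon _ (fun e => hadd (Subtype.ext e))
        (by rw [Submodule.coe_add, nsmul_add, hpu, hpv, add_zero]) h2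
    · have h2 := (S.inE0_pointMap _).mpr h1
      rw [map_sub, hu', hv'] at h2
      exact hcon _ (fun e => hne (Subtype.ext (Subtype.ext (sub_eq_zero.mp e))))
        (by rw [nsmul_sub, hpu, hpv, sub_zero]) h2
  by_cases h : a.1 + b.1 = 0
  · refine main a c (ha.trans hc.symm) hac fun h' => hbc (Subtype.ext ?_)
    exact add_left_cancel (h.trans h'.symm)
  · exact main a b (ha.trans hb.symm) hab h

/-- Frobenius acts as `± q` on torsion with nonsingular reduction. -/
theorem frobenius_inE0_torsion {q : ℕ} [hq : Fact q.Prime] (hA : A.LiesOverPrime q)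
    {τ : GG} (hτ : A.IsFrobeniusAt τ q) {n : ℕ} (hn : A.valuation (n : QQb) = 1)
    {P : (barCurve W).Point} (hnP : n • P = 0) (hP : InE0 (intCoeff_barCurve W A) P) :
    τ • P = q • P ∨ τ • P = -(q • P) := by
  rcases eq_or_ne P 0 with rfl | hP0
  · left; rw [nsmul_zero]; rfl
  obtain ⟨hτd, hτres⟩ := hτ
  haveI := charP_residueField hA
  haveI := isAlgClosed_residueField A
  have hτA : ∀ z ∈ A, τ z ∈ A := fun z hz => (mem_iff_of_mem_decomposition hτd z).mpr hz
  have hres : ∀ (z : QQb) (hz : z ∈ A),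
      residue A ⟨τ z, hτA z hz⟩ = residue A ⟨z, hz⟩ ^ q := fun z hz ↦ by
    rw [← hτres, ← IsLocalRing.ResidueField.residue_smul]; rfl
  set hN := S.node
  set V := hN.toIntCoeff.redCurve
  set F := frobenius (ResidueField A) q
  have hFint : ∀ (z : QQb) (hz : z ∈ A), (∃ m : ℤ, A.valuation (z - m) < 1) →
      F (residue A ⟨z, hz⟩) = residue A ⟨z, hz⟩ := by
    rintro z hz ⟨m, hm⟩
    have : residue A ⟨z, hz⟩ = (m : ResidueField A) := by
      rw [← map_intCast (residue A), residue_eq_iff_val_sub_lt_one]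
      simpa using hm
    rw [this, map_intCast]
  have hr : F (residue A ⟨S.C.r, S.r_mem⟩) = residue A ⟨S.C.r, S.r_mem⟩ :=
    hFint _ _ ⟨S.x₀, S.r_near⟩
  have ha₁ : F V.a₁ = V.a₁ := by
    refine hFint S.model.a₁ hN.mem₁ ⟨W.a₁, ?_⟩
    rw [S.a₁_eq]; simp [WeierstrassCurve.map]
  have ha₂ : F V.a₂ = V.a₂ := by
    refine hFint S.model.a₂ hN.mem₂ ⟨W.a₂ + 3 * S.x₀, ?_⟩
    have h2 := S.C.h₂
    rw [S.u_eq, S.s_eq] at h2
    have : S.model.a₂ = (barCurve W).a₂ + 3 * S.C.r := by linear_combination h2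
    rw [this, show (barCurve W).a₂ + 3 * S.C.r - ((W.a₂ + 3 * S.x₀ : ℤ) : QQb) =
      3 * (S.C.r - S.x₀) by simp [WeierstrassCurve.map]; ring, map_mul]
    exact (mul_le_of_le_one_left' (val_le_one (natCast_mem A 3))).trans_lt S.r_near
  have hb₂ : V.a₁ ^ 2 + 4 * V.a₂ ≠ 0 := by
    have h := (residue_ne_zero_iff_val_eq_one ⟨_, hN.mem_b₂⟩).mpr hN.b₂_unit
    have e : residue A ⟨_, hN.mem_b₂⟩ = V.a₁ ^ 2 + 4 * V.a₂ := by
      change _ = residue A ⟨_, hN.mem₁⟩ ^ 2 + 4 * residue A ⟨_, hN.mem₂⟩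
      rw [← map_pow, ← map_ofNat (residue A) 4, ← map_mul, ← map_add]
      rfl
    rwa [e] at h
  have ha₄ : V.a₄ = 0 := (residue_eq_zero_iff_val_lt_one _).mpr hN.a₄_lt
  have ha₃ : V.a₃ = 0 := (residue_eq_zero_iff_val_lt_one _).mpr (by
    show A.valuation S.model.a₃ < 1; rw [hN.a₃_eq, map_zero]; exact zero_lt_one)
  have ha₆ : V.a₆ = 0 := (residue_eq_zero_iff_val_lt_one _).mpr (by
    show A.valuation S.model.a₆ < 1; rw [hN.a₆_eq, map_zero]; exact zero_lt_one)
  -- the reduced singular point is rational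
  have ht : F (residue A ⟨S.C.t, S.t_mem⟩) = residue A ⟨S.C.t, S.t_mem⟩ := by
    set t₀ := residue A ⟨S.C.t, S.t_mem⟩
    set r₀ := residue A ⟨S.C.r, S.r_mem⟩
    have hI := intCoeff_barCurve W A
    have e3 : hI.redCurve.a₃ + r₀ * V.a₁ + 2 * t₀ = 0 := by
      change residue A ⟨_, hI.mem₃⟩ + r₀ * residue A ⟨_, hN.mem₁⟩ + 2 * t₀ = 0
      rw [← map_ofNat (residue A) 2, ← map_mul, ← map_mul, ← map_add, ← map_add,
        residue_eq_zero_iff_val_lt_one]
      have h3 := S.C.h₃
      rw [S.u_eq, hN.a₃_eq, ← S.a₁_eq, mul_zero] at h3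
      push_cast
      rw [show (((2 : A)) : QQb) = 2 from rfl, ← h3, map_zero]; exact zero_lt_one
    have e4 : hI.redCurve.a₄ + 2 * r₀ * hI.redCurve.a₂ - t₀ * V.a₁ + 3 * r₀ ^ 2 = 0 := by
      change residue A ⟨_, hI.mem₄⟩ + 2 * r₀ * residue A ⟨_, hI.mem₂⟩ -
        t₀ * residue A ⟨_, hN.mem₁⟩ + 3 * r₀ ^ 2 = 0
      rw [← map_ofNat (residue A) 2, ← map_ofNat (residue A) 3, ← map_pow, ← map_mul, ← map_mul,
        ← map_mul, ← map_mul, ← map_add, ← map_sub, ← map_add, residue_eq_zero_iff_val_lt_one]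
      have h4 := S.C.h₄
      rw [S.u_eq, S.s_eq] at h4
      push_cast
      rw [S.a₁_eq]
      rw [show (((2 : A)) : QQb) = 2 from rfl, show (((3 : A)) : QQb) = 3 from rfl]
      convert hN.a₄_lt using 2
      linear_combination -h4
    have f2 : F hI.redCurve.a₂ = hI.redCurve.a₂ := hFint _ _ ⟨W.a₂, by simp [WeierstrassCurve.map]⟩
    have f3 : F hI.redCurve.a₃ = hI.redCurve.a₃ := hFint _ _ ⟨W.a₃, by simp [WeierstrassCurve.map]⟩
    have f4 : F hI.redCurve.a₄ = hI.redCurve.a₄ := hFint _ _ ⟨W.a₄, by simp [WeierstrassCurve.map]⟩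
    have g3 := congrArg F e3
    have g4 := congrArg F e4
    simp only [map_add, map_sub, map_mul, map_pow, map_ofNat, map_zero, f2, f3, f4, ha₁, hr]
      at g3 g4
    have k1 : 2 * (F t₀ - t₀) = 0 := by linear_combination g3 - e3
    have k2 : V.a₁ * (F t₀ - t₀) = 0 := by linear_combination e4 - g4
    rw [← sub_eq_zero]
    by_contra hne
    have h20 := (mul_eq_zero.mp k1).resolve_right hne
    have ha0 := (mul_eq_zero.mp k2).resolve_right hne
    exact hb₂ (by linear_combination V.a₁ * ha0 + (2 * V.a₂) * h20)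
  obtain ⟨d, hd⟩ := IsAlgClosed.exists_root
    (Polynomial.C 1 * Polynomial.X ^ 2 + Polynomial.C V.a₁ * Polynomial.X + Polynomial.C (-V.a₂))
    (by rw [Polynomial.degree_quadratic (one_ne_zero (α := ResidueField A))]; decide)
  simp only [Polynomial.IsRoot, Polynomial.eval_add, Polynomial.eval_mul, Polynomial.eval_C,
    Polynomial.eval_pow, Polynomial.eval_X, one_mul] at hd
  set d' := -V.a₁ - d
  have hc : IsNodal V d d' :=
    ⟨by simp [d'], by simp only [d']; linear_combination -hd, ha₃, ha₄, ha₆,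
      fun e => hb₂ (by simp only [d'] at e; linear_combination (-4 : ResidueField A) * hd + (d - (-V.a₁ - d)) * e)⟩
  have hFd : F d = d ∨ F d = d' := by
    have h1 := congrArg F hd
    simp only [map_add, map_mul, map_pow, map_neg, ha₁, ha₂, map_zero] at h1
    have h2 : (F d - d) * (F d - d') = 0 := by simp only [d']; linear_combination h1 - hd
    exact (mul_eq_zero.mp h2).imp sub_eq_zero.mp sub_eq_zero.mp
  have hFd' : F d' = -V.a₁ - F d := by simp only [d', map_sub, map_neg, ha₁]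
  obtain ⟨P', hP'⟩ := S.pointMap_surjective P
  have hP'0 : InE0 hN.toIntCoeff P' := (S.inE0_pointMap P').mp (hP' ▸ hP)
  have hnP' : n • P' = 0 := S.C.pointMap_injective (by rw [map_nsmul, hP', hnP, map_zero])
  have hE1 : ¬InE1 A P' := fun h => hP0 (by
    rw [← hP', eq_zero_of_inE1_of_nsmul hN.toIntCoeff h hn hnP', map_zero])
  rcases P' with _ | ⟨x, y, h⟩
  · exact absurd trivial hE1
  obtain ⟨hx, hy, hns⟩ := hP'0.resolve_left hE1
  obtain ⟨h', e⟩ := smul_bar_some τ (S.C.nonsingular_map h)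
  obtain ⟨Q', hQ'⟩ := S.pointMap_surjective (τ • P)
  have hQ'0 : InE0 hN.toIntCoeff Q' :=
    (S.inE0_pointMap Q').mp (hQ' ▸ inE0_smul hτd hP)
  rcases Q' with _ | ⟨x', y', hQns⟩
  · exfalso
    have : τ • P = 0 := hQ'.symm
    exact hP0 (by rw [← inv_smul_smul τ P, this]; rfl)
  have hQ'e : x' + S.C.r = τ x + τ S.C.r ∧ y' + S.C.t = τ y + τ S.C.t := by
    have e2 := hQ'.trans ((congrArg (τ • ·) hP'.symm).trans e)
    rw [S.C.pointMap_some, Point.some.injEq, S.X_eq, S.Y_eq, S.X_eq, S.Y_eq, map_add, map_add]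
      at e2
    exact e2
  have hx' : x' ∈ A := by
    rw [show x' = τ x + τ S.C.r - S.C.r by linear_combination hQ'e.1]
    exact sub_mem (add_mem (hτA _ hx) (hτA _ S.r_mem)) S.r_mem
  have hy' : y' ∈ A := by
    rw [show y' = τ y + τ S.C.t - S.C.t by linear_combination hQ'e.2]
    exact sub_mem (add_mem (hτA _ hy) (hτA _ S.t_mem)) S.t_mem
  have hrx : residue A ⟨x', hx'⟩ = F (residue A ⟨x, hx⟩) := by
    have e1 : (⟨x', hx'⟩ : A) = ⟨τ x, hτA x hx⟩ + ⟨τ S.C.r, hτA _ S.r_mem⟩ - ⟨S.C.r, S.r_mem⟩ :=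
      Subtype.ext (by push_cast; linear_combination hQ'e.1)
    rw [e1, map_sub, map_add, hres x hx, hres _ S.r_mem, ← frobenius_def, ← frobenius_def]
    change F _ + F _ - _ = _
    rw [hr, add_sub_cancel_right]
  have hry : residue A ⟨y', hy'⟩ = F (residue A ⟨y, hy⟩) := by
    have e1 : (⟨y', hy'⟩ : A) = ⟨τ y, hτA y hy⟩ + ⟨τ S.C.t, hτA _ S.t_mem⟩ - ⟨S.C.t, S.t_mem⟩ :=
      Subtype.ext (by push_cast; linear_combination hQ'e.2)
    rw [e1, map_sub, map_add, hres y hy, hres _ S.t_mem, ← frobenius_def, ← frobenius_def]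
    change F _ + F _ - _ = _
    rw [ht, add_sub_cancel_right]
  obtain ⟨hx'', hy'', hns'⟩ := hQ'0.resolve_left (fun h => h hx')
  set P₁ : e0Subgroup hN.toIntCoeff := ⟨Point.some x y h, hP'0⟩
  set Q₁ : e0Subgroup hN.toIntCoeff := ⟨Point.some x' y' hQns, hQ'0⟩
  set w := nodeParam d d' (redHom hN.toIntCoeff P₁) with hw
  have hwP : w = (residue A ⟨y, hy⟩ - d * residue A ⟨x, hx⟩) /
      (residue A ⟨y, hy⟩ - d' * residue A ⟨x, hx⟩) := by
    rw [hw, redHom_apply, red_some _ hx hy hns]; rfl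
  have hwQ : nodeParam d d' (redHom hN.toIntCoeff Q₁) =
      (F (residue A ⟨y, hy⟩) - d * F (residue A ⟨x, hx⟩)) /
      (F (residue A ⟨y, hy⟩) - d' * F (residue A ⟨x, hx⟩)) := by
    rw [redHom_apply, red_some _ hx'' hy'' hns']
    show (residue A ⟨y', hy'⟩ - d * residue A ⟨x', hx'⟩) /
      (residue A ⟨y', hy'⟩ - d' * residue A ⟨x', hx'⟩) = _
    rw [hrx, hry]
  have hpow : ∀ (m : ℕ) (R : V.Point), nodeParam d d' (m • R) = nodeParam d d' R ^ m := by
    intro m R
    induction m with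
    | zero => rw [zero_nsmul, pow_zero]; rfl
    | succ m IH => rw [succ_nsmul, hc.nodeParam_add, IH, pow_succ]
  have hneg : ∀ R : V.Point, nodeParam d d' (-R) = (nodeParam d d' R)⁻¹ := fun R =>
    eq_inv_of_mul_eq_one_left (by rw [← hc.nodeParam_add, neg_add_cancel]; rfl)
  have hrel : redHom hN.toIntCoeff Q₁ = q • redHom hN.toIntCoeff P₁ ∨
      redHom hN.toIntCoeff Q₁ = -(q • redHom hN.toIntCoeff P₁) := by
    have hFw : w ^ q = (F (residue A ⟨y, hy⟩) - F d * F (residue A ⟨x, hx⟩)) /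
        (F (residue A ⟨y, hy⟩) - F d' * F (residue A ⟨x, hx⟩)) := by
      rw [← frobenius_def]
      change F w = _
      rw [hwP, map_div₀, map_sub, map_sub, map_mul, map_mul]
    rcases hFd with hd1 | hd1
    · left
      apply hc.nodeParam_injective
      rw [hpow, ← hw, hwQ, hFw, hFd', hd1]
    · right
      apply hc.nodeParam_injective
      rw [hneg, hpow, ← hw, hwQ, hFw, hFd', hd1, inv_div,
        show -V.a₁ - d' = d by simp [d']]
  have key : ∀ R : e0Subgroup hN.toIntCoeff, redHom hN.toIntCoeff Q₁ = redHom hN.toIntCoeff R →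
      n • (R : S.model.Point) = 0 → τ • P = S.C.pointMap R := by
    intro R hR hnR
    have hnQ : n • (Point.some x' y' hQns : S.model.Point) = 0 := S.C.pointMap_injective (by
      rw [map_nsmul, hQ', nsmul_galois, hnP, galois_zero, map_zero])
    have h1 := sub_inE1_of_red_eq hN.toIntCoeff hQ'0 R.2 hR
    have h2 := eq_zero_of_inE1_of_nsmul hN.toIntCoeff h1 hn (k := n)
      (by rw [nsmul_sub, hnQ, hnR, sub_zero])
    rw [← hQ', sub_eq_zero.mp h2]
  rcases hrel with hR | hR
  · left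
    have := key (q • P₁) (by rw [map_nsmul]; exact hR)
      (by rw [AddSubgroupClass.coe_nsmul, smul_comm, hnP', nsmul_zero])
    rw [this, AddSubgroupClass.coe_nsmul, map_nsmul, hP']
  · right
    have := key (-(q • P₁)) (by rw [map_neg, map_nsmul]; exact hR)
      (by rw [AddSubgroup.coe_neg, AddSubgroupClass.coe_nsmul, smul_neg, smul_comm, hnP',
        nsmul_zero, neg_zero])
    rw [this, AddSubgroup.coe_neg, AddSubgroupClass.coe_nsmul, map_neg, map_nsmul, hP']

end SemiNode

end FLTAgent.LevelMatch
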