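import Fermat.Agent.LevelMatch.Tate
import Fermat.Agent.LevelMatch.Local
import Fermat.Agent.DetCyclo.Basic
import Fermat.Agent.FrobTrace.Det
import Fermat.Prelude.Def_FLTPrelim_ModularRep

/-!
The Tate module of a semistable curve: Frobenius at good primes and inertia away from `p`.
-/

set_option autoImplicit false
set_option linter.style.haveILetI false

noncomputable section

open scoped Classical WeierstrassCurve.Affine Pointwise
open WeierstrassCurve WeierstrassCurve.Affine WeierstrassCurve.Affine.Point IsLocalRing Matrix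

namespace FLTAgent.LevelMatch

local notation "QQb" => AlgebraicClosure ℚ
local notation "GG" => (AlgebraicClosure ℚ ≃ₐ[ℚ] AlgebraicClosure ℚ)

open FLTAgent.FrobTrace FLTAgent.LocalEC

variable {W : WeierstrassCurve ℤ} {A : ValuationSubring (AlgebraicClosure ℚ)}

/-- The quadratic relation of a Frobenius element on torsion prime to the residue characteristic. -/
theorem frobenius_relation {ℓ : ℕ} [hℓ : Fact ℓ.Prime] (hgood : W.IsGoodPrimeFor ℓ)
    (hA : A.LiesOverPrime ℓ) {τ : GG} (hτ : A.IsFrobeniusAt τ ℓ) {n : ℕ} (hn : ¬ ℓ ∣ n)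
    {T : (barCurve W).Point} (hT : n • T = 0) :
    τ • τ • T - (W.apOfModel ℓ) • (τ • T) + (ℓ : ℤ) • T = 0 := by
  haveI := charP_residueField hA
  letI : Algebra (ZMod ℓ) (ResidueField A) := ZMod.algebra (ResidueField A) ℓ
  haveI := isAlgebraic_residueField hA
  haveI := isAlgClosed_residueField A
  haveI := isElliptic_reductionMod hgood
  have hW := intCoeff_barCurve W A
  have hΔ : A.valuation (barCurve W).Δ = 1 := by
    rw [Δ_barCurve]; exact val_intCast_eq_one hA hℓ.out hgood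
  have hEq : hW.redCurve = ((W.reductionMod ℓ)⁄(ResidueField A)) := by
    have key : ∀ (m : ℤ) (a : A), (a : QQb) = (m : QQb) → residue A a = (m : ResidueField A) := by
      intro m a h
      rw [show a = (m : A) from Subtype.ext (by simpa using h), map_intCast]
    ext <;> simp only [IntCoeff.redCurve, IntCoeff.model, WeierstrassCurve.reductionMod,
        WeierstrassCurve.baseChange, WeierstrassCurve.map, eq_intCast, map_intCast] <;>
      exact key _ _ (by simp [barCurve, WeierstrassCurve.map])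
  let Φ : (barCurve W).Point →+ ((W.reductionMod ℓ)⁄(ResidueField A)).Point :=
    (castPoint hEq).toAddMonoidHom.comp ((redHom hW).comp
      ((AddMonoidHom.id (barCurve W).Point).codRestrict (e0Subgroup hW)
        fun P ↦ inE0_of_val_disc hW hΔ P))
  have hΦ : ∀ P, Φ P = castPoint hEq (red hW P) := fun P ↦ rfl
  have hinj : ∀ P : (barCurve W).Point, n • P = 0 → Φ P = 0 → P = 0 := by
    intro P hP h0
    rw [hΦ, EmbeddingLike.map_eq_zero_iff] at h0
    exact eq_zero_of_inE1_of_nsmul hW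
      ((inE1_iff_red_eq_zero hW (inE0_of_val_disc hW hΔ _)).mpr h0)
      (val_natCast_eq_one hA hℓ.out hn) hP
  obtain ⟨hτd, hτres⟩ := hτ
  have hσmem : ∀ z ∈ A, τ z ∈ A := fun z hz ↦ (mem_iff_of_mem_decomposition hτd z).mpr hz
  have hresτ : ∀ (z : QQb) (hz : z ∈ A),
      residue A ⟨τ z, hσmem z hz⟩ = residue A ⟨z, hz⟩ ^ ℓ := fun z hz ↦ by
    rw [← hτres, ← IsLocalRing.ResidueField.residue_smul]; rfl
  have hcomm : ∀ P : (barCurve W).Point, Φ (τ • P) = frobPt (W.reductionMod ℓ) (ResidueField A) (Φ P) := by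
    intro P
    rw [hΦ, hΦ]
    rcases P with _ | ⟨x, y, hxy⟩
    · rw [show τ • (Point.zero : (barCurve W).Point) = 0 from rfl, ← Point.zero_def, red_zero,
        _root_.map_zero, _root_.map_zero]
    obtain ⟨h', hval⟩ := smul_bar_some τ hxy
    rw [hval]
    by_cases hx : x ∈ A
    · have hy : y ∈ A := hW.y_mem hxy.1 hx
      obtain ⟨_, _, hns⟩ := (inE0_of_val_disc hW hΔ (Point.some x y hxy)).resolve_left
        (fun h ↦ h hx)
      obtain ⟨_, _, hns'⟩ := (inE0_of_val_disc hW hΔ (Point.some (τ x) (τ y) h')).resolve_left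
        (fun h ↦ h (hσmem x hx))
      rw [red_some hW hx hy hns, red_some hW (hσmem x hx) (hσmem y hy) hns', castPoint_some,
        castPoint_some, frobPt, Point.map_some, Point.some.injEq]
      simp only [FiniteField.coe_frobeniusAlgHom, ZMod.card]
      exact ⟨hresτ x hx, hresτ y hy⟩
    · have h1 : InE1 A (Point.some x y hxy) := hx
      have h2 : InE1 A (Point.some (τ x) (τ y) h') := fun h ↦
        hx ((mem_iff_of_mem_decomposition hτd x).mp h)
      rw [red_of_inE1 hW h1, red_of_inE1 hW h2, _root_.map_zero, _root_.map_zero]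
  have hτT : n • (τ • T) = 0 := by rw [nsmul_galois, hT, galois_zero]
  refine hinj _ ?_ ?_
  · rw [nsmul_add, nsmul_sub, nsmul_galois, hτT, galois_zero, smul_comm n, hτT, smul_comm n, hT,
      zsmul_zero, zsmul_zero, sub_zero, add_zero]
  · have hnF : (n : ZMod ℓ) ≠ 0 := by rwa [Ne, ZMod.natCast_eq_zero_iff]
    have h := frob_quadratic (W.reductionMod ℓ) (K := ResidueField A) hnF (P := Φ T)
      (by rw [← map_nsmul, hT, _root_.map_zero])
    rw [ZMod.card] at h
    rw [map_add, map_sub, hcomm, map_zsmul, map_zsmul, hcomm]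
    exact h

variable {p : ℕ} [hp : Fact p.Prime] (B : TateBasis (barCurve W).Point p)

/-- The quadratic relation on the Tate module. -/
theorem tate_quad {ℓ : ℕ} [hℓ : Fact ℓ.Prime] (hgood : W.IsGoodPrimeFor ℓ) (hne : ℓ ≠ p)
    (hA : A.LiesOverPrime ℓ) {τ : GG} (hτ : A.IsFrobeniusAt τ ℓ) :
    (B.tateRep τ : Deformation.M2 ℤ_[p]) * B.tateRep τ - ((W.apOfModel ℓ : ℤ) : ℤ_[p]) • B.tateRep τ +
      (ℓ : ℤ_[p]) • 1 = 0 := by
  refine B.eq_zero_of_pt fun n u => ?_
  have hn : ¬ ℓ ∣ p ^ n := fun h => hne ((Nat.prime_dvd_prime_iff_eq hℓ.out hp.out).mp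
    (hℓ.out.dvd_of_dvd_pow h))
  have h := frobenius_relation hgood hA hτ hn (B.nsmul_pt n u)
  rw [B.smul_pt, B.smul_pt, ← map_zsmul, ← map_zsmul, ← map_sub, ← map_add] at h
  rw [← h, add_mulVec, sub_mulVec, smul_mulVec, smul_mulVec, ← mulVec_mulVec, one_mulVec,
    Int.cast_smul_eq_zsmul, show ((ℓ : ℤ_[p]) • u) = (ℓ : ℤ) • u by
      rw [← Int.cast_smul_eq_zsmul ℤ_[p] (ℓ : ℤ) u]; norm_num]

/-- The Tate module is not scalar when the torsion is irreducible. -/
theorem exists_not_scalar_tateRep (hirr : W.ModRepIsIrreducible p) :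
    ∃ σ : GG, ¬ DetCyclo.IsScalarMat (B.tateRep σ : Deformation.M2 ℤ_[p]) := by
  by_contra hall
  push Not at hall
  obtain ⟨-, hmax⟩ := hirr
  set e₀ : Fin 2 → ℤ_[p] := Pi.single 0 1
  set e₁ : Fin 2 → ℤ_[p] := Pi.single 1 1
  let P : Submodule.torsionBy ℤ ((W.map (Int.castRingHom ℚ))⁄(AlgebraicClosure ℚ)).Point p :=
    ⟨B.pt 1 e₀, Torsion.mem_torsionBy_iff_nsmul.mpr (by
      have := B.nsmul_pt 1 e₀; rwa [pow_one] at this)⟩
  have hdvd : ¬ ((p ^ 1 : ℕ) : ℤ_[p]) ∣ 1 := fun h => by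
    rw [pow_one] at h
    exact PadicInt.p_nonunit (isUnit_of_dvd_one h)
  have hP0 : P ≠ 0 := fun h => hdvd (by
    have h0 := B.pt_eq_zero_iff.mp (congrArg Subtype.val h) 0
    simpa [e₀] using h0)
  have hst : IsGaloisStable ℚ (ZMod p ∙ P) := by
    intro σ x hx
    obtain ⟨c, rfl⟩ := Submodule.mem_span_singleton.mp hx
    obtain ⟨m, hm⟩ : ∃ m : ℤ, σ • P = (m : ZMod p) • P := by
      obtain ⟨m, -, hm, -, -⟩ := B.exists_int_approx 1 (fun _ => B.tateRep σ 0 0)
      refine ⟨m, ?_⟩
      rw [Int.cast_smul_eq_zsmul]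
      refine Subtype.ext ?_
      show σ • B.pt 1 e₀ = m • B.pt 1 e₀
      rw [B.smul_pt, DetCyclo.exists_eq_smul_one (hall σ), smul_mulVec, one_mulVec]
      exact B.pt_smul 1 hm e₀
    refine Submodule.mem_span_singleton.mpr ⟨c * (m : ZMod p), ?_⟩
    obtain ⟨j, rfl⟩ := ZMod.intCast_surjective c
    rw [mul_smul, ← hm, Int.cast_smul_eq_zsmul, Int.cast_smul_eq_zsmul]
    exact Subtype.ext (algEquiv_smul_zsmul σ j _).symm
  rcases hmax _ hst with h | h
  · exact hP0 (Submodule.span_singleton_eq_bot.mp h)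
  · let Q : Submodule.torsionBy ℤ ((W.map (Int.castRingHom ℚ))⁄(AlgebraicClosure ℚ)).Point p :=
      ⟨B.pt 1 e₁, Torsion.mem_torsionBy_iff_nsmul.mpr (by
        have := B.nsmul_pt 1 e₁; rwa [pow_one] at this)⟩
    obtain ⟨c, hc⟩ := Submodule.mem_span_singleton.mp (h.ge (Submodule.mem_top (x := Q)))
    obtain ⟨j, rfl⟩ := ZMod.intCast_surjective c
    rw [Int.cast_smul_eq_zsmul] at hc
    have hc' : B.pt 1 (j • e₀ - e₁) = 0 := by
      rw [map_sub, map_zsmul, sub_eq_zero]; exact congrArg Subtype.val hc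
    have h1 := B.pt_eq_zero_iff.mp hc' 1
    exact hdvd (by simpa [e₀, e₁] using h1)

/-- Roots of unity of `p`-power order are fixed by inertia away from `p`. -/
theorem inertia_cycloExponent {q : ℕ} (hq : q.Prime) (hqp : q ≠ p) (hA : A.LiesOverPrime q)
    {σ : GG} (hσ : σ ∈ A.inertiaSubgroupIn ℚ) (n : ℕ) : DetCyclo.CycloExponent p n σ 1 := by
  intro ζ hζ
  rw [pow_one]
  have hn0 : p ^ n ≠ 0 := pow_ne_zero _ hp.out.ne_zero
  have hζA : ζ ∈ A := by
    by_contra h
    rw [not_mem_iff_one_lt_val] at h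
    have h1 := congrArg A.valuation hζ
    rw [map_pow, map_one] at h1
    exact absurd h1 (one_lt_pow₀ h hn0).ne'
  by_contra hne
  have hσA : σ ζ ∈ A := (residueFix_of_mem_inertia hσ).map_mem hζA
  have hr := (residueFix_of_mem_inertia hσ) ζ hζA
  set a : A := ⟨ζ, hζA⟩
  set b : A := ⟨σ ζ, hσA⟩
  have hab : residue A b = residue A a := (residue_eq_iff_val_sub_lt_one _ _).mpr hr
  have hpow : b ^ p ^ n = a ^ p ^ n := Subtype.ext (by
    simp only [a, b, SubmonoidClass.coe_pow]
    rw [← map_pow, hζ, map_one])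
  have hsum := geom_sum₂_mul b a (p ^ n)
  rw [hpow, sub_self, mul_eq_zero] at hsum
  rcases hsum with hsum | hsum
  · have h1 := congrArg (residue A) hsum
    rw [map_sum, _root_.map_zero] at h1
    simp only [map_mul, map_pow, hab, ← pow_add] at h1
    rw [Finset.sum_congr rfl (g := fun _ => residue A a ^ (p ^ n - 1)) (fun i hi => by
      rw [Finset.mem_range] at hi
      rw [show i + (p ^ n - 1 - i) = p ^ n - 1 by omega]), Finset.sum_const, Finset.card_range,
      nsmul_eq_mul] at h1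
    have ha1 : residue A a ^ p ^ n = 1 := by
      rw [← map_pow, show a ^ p ^ n = 1 from Subtype.ext (by simp [a, hζ]), map_one]
    have hp0 : ((p ^ n : ℕ) : ResidueField A) ≠ 0 := by
      rw [← map_natCast (residue A)]
      refine (residue_ne_zero_iff_val_eq_one _).mpr ?_
      simpa using val_natCast_eq_one hA hq (n := p ^ n)
        (fun h => hqp ((Nat.prime_dvd_prime_iff_eq hq hp.out).mp (hq.dvd_of_dvd_pow h)))
    have h0 := (mul_eq_zero.mp h1).resolve_left hp0
    exact one_ne_zero (α := ResidueField A) (by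
      rw [← ha1, ← Nat.sub_add_cancel (Nat.one_le_iff_ne_zero.mpr hn0), pow_succ, h0, zero_mul])
  · exact hne (congrArg Subtype.val (sub_eq_zero.mp hsum))

/-- Inertia away from `p` is unipotent on the Tate module of a semistable curve. -/
theorem tateRep_inertia (hW : W.Δ ≠ 0) (hss : W.IsSemistableModel) (hp2 : p ≠ 2)
    (hdet : ∀ σ : GG, (∀ n, DetCyclo.CycloExponent p n σ 1) →
      (B.tateRep σ : Deformation.M2 ℤ_[p]).det = 1)
    {q : ℕ} (hq : q.Prime) (hqp : q ≠ p) (hA : A.LiesOverPrime q) {σ : GG}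
    (hσ : σ ∈ A.inertiaSubgroupIn ℚ) :
    (B.tateRep σ - 1 : Deformation.M2 ℤ_[p]) ^ 2 = 0 := by
  set R : Deformation.M2 ℤ_[p] := B.tateRep σ
  have hval : ∀ n, A.valuation ((p ^ n : ℕ) : QQb) = 1 := fun n => val_natCast_eq_one hA hq
    fun h => hqp ((Nat.prime_dvd_prime_iff_eq hq hp.out).mp (hq.dvd_of_dvd_pow h))
  by_cases hgood : (q : ℤ) ∣ W.Δ
  swap
  · have hR : R = 1 := B.matrix_ext fun n u => by
      rw [← B.smul_pt, one_mulVec]
      exact inertia_smul_of_inE0 hσ (hval n) (B.nsmul_pt n u) (inE0_of_val_disc _ (by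
        rw [Δ_barCurve]; exact val_intCast_eq_one hA hq hgood) _)
    rw [hR, sub_self, zero_pow two_ne_zero]
  obtain ⟨S⟩ := exists_semiNode hW hq hgood (hss q hq hgood) hA
  have hdec := inertia_le_decomposition hσ
  have hcase : ∀ n u, B.pt n ((R - 1) ^ 2 *ᵥ u) = 0 ∨ B.pt n ((R ^ 2 - 1) *ᵥ u) = 0 := by
    intro n u
    set T := B.pt n u
    have hT := B.nsmul_pt n u
    have hσT : (p ^ n) • (σ • T) = 0 := by rw [nsmul_galois, hT, galois_zero]
    rcases S.inE0_smul_sub_or_add hdec (n := p ^ n) ((hp.out.odd_of_ne_two hp2).pow) hT with h | h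
    · left
      have := inertia_smul_of_inE0 hσ (hval n) (by rw [nsmul_sub, hσT, hT, sub_zero]) h
      rw [show σ • (σ • B.pt n u - B.pt n u) = σ • (σ • B.pt n u) - σ • B.pt n u from
        map_sub (DistribSMul.toAddMonoidHom (barCurve W).Point σ) _ _] at this
      rw [sq, ← mulVec_mulVec, sub_mulVec, one_mulVec, map_sub, ← B.smul_pt, sub_mulVec, one_mulVec,
        map_sub, ← B.smul_pt, show σ • (σ • B.pt n u - B.pt n u) = σ • (σ • B.pt n u) - σ • B.pt n u from
          map_sub (DistribSMul.toAddMonoidHom (barCurve W).Point σ) _ _, this, sub_self]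
    · right
      have := inertia_smul_of_inE0 hσ (hval n) (by rw [nsmul_add, hσT, hT, add_zero]) h
      rw [show σ • (σ • B.pt n u + B.pt n u) = σ • (σ • B.pt n u) + σ • B.pt n u from
        map_add (DistribSMul.toAddMonoidHom (barCurve W).Point σ) _ _] at this
      rw [sub_mulVec, one_mulVec, map_sub, sq, ← mulVec_mulVec, ← B.smul_pt, ← B.smul_pt,
        sub_eq_zero]
      exact add_right_cancel (this.trans (add_comm _ _))
  have hmod : ∀ n, (∀ u, B.pt n ((R - 1) ^ 2 *ᵥ u) = 0) ∨ (∀ u, B.pt n ((R ^ 2 - 1) *ᵥ u) = 0) := by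
    intro n
    by_contra hc
    rw [not_or, not_forall, not_forall] at hc
    obtain ⟨⟨u, hu⟩, v, hv⟩ := hc
    have hu' := (hcase n u).resolve_left hu
    have hv' := (hcase n v).resolve_right hv
    rcases hcase n (u + v) with h | h
    · rw [mulVec_add, map_add, hv', add_zero] at h; exact hu h
    · rw [mulVec_add, map_add, hu', zero_add] at h; exact hv h
  by_contra hne
  obtain ⟨n₀, u₀, h₀⟩ : ∃ n u, B.pt n ((R - 1) ^ 2 *ᵥ u) ≠ 0 := by
    by_contra h
    push Not at h
    exact hne (B.eq_zero_of_pt h)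
  have hsq : R ^ 2 = 1 := sub_eq_zero.mp (B.eq_zero_of_pt fun n u => by
    have hmax : B.pt (n + n₀) ((R ^ 2 - 1) *ᵥ u) = 0 := by
      rcases hmod (n + n₀) with h | h
      · exfalso
        apply h₀
        rw [← B.nsmul_pow_pt n₀ n, show n₀ + n = n + n₀ from add_comm _ _, h, nsmul_zero]
      · exact h u
    rw [← B.nsmul_pow_pt n n₀, hmax, nsmul_zero])
  have hd : R.det = 1 := hdet σ (inertia_cycloExponent hq hqp hA hσ)
  have e := fun i j => congrFun (congrFun hsq i) j
  have e00 := e 0 0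
  have e01 := e 0 1
  have e10 := e 1 0
  have e11 := e 1 1
  simp [sq, Matrix.mul_apply, Fin.sum_univ_two] at e00 e01 e10 e11
  rw [Matrix.det_fin_two] at hd
  have htr : (R 0 0 + R 1 1) ^ 2 = 4 := by linear_combination e00 + e11 + 2 * hd
  have ht0 : R 0 0 + R 1 1 ≠ 0 := fun h => by rw [h] at htr; norm_num at htr
  have h01 : R 0 1 = 0 := (mul_eq_zero.mp (show R 0 1 * (R 0 0 + R 1 1) = 0 by
    linear_combination e01)).resolve_right ht0
  have h10 : R 1 0 = 0 := (mul_eq_zero.mp (show R 1 0 * (R 0 0 + R 1 1) = 0 by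
    linear_combination e10)).resolve_right ht0
  have h11 : R 1 1 = R 0 0 := by
    rw [h01] at e00
    refine mul_left_cancel₀ (show R 0 0 ≠ 0 from fun h => by
      rw [h] at e00; norm_num at e00) ?_
    rw [h01] at hd
    linear_combination hd - e00
  rcases mul_self_eq_one_iff.mp (show R 0 0 * R 0 0 = 1 by rw [h01] at e00; linear_combination e00)
    with h | h
  · refine hne ?_
    have : R = 1 := by
      ext i j; fin_cases i <;> fin_cases j <;> simp [h01, h10, h11, h]
    rw [this, sub_self, zero_pow two_ne_zero]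
  · obtain ⟨P, hP0, hpP, hP⟩ := S.exists_inE0_torsion hW (p := p) hp2
    obtain ⟨u, rfl⟩ := B.exists_pt 1 (T := P) (by rw [pow_one]; exact hpP)
    have hfix := inertia_smul_of_inE0 hσ (by simpa using hval 1) hpP hP
    have hR : R = -1 := by
      ext i j; fin_cases i <;> fin_cases j <;> simp [h01, h10, h11, h]
    rw [B.smul_pt] at hfix
    change B.pt 1 (R *ᵥ u) = _ at hfix
    rw [hR, neg_mulVec, one_mulVec, map_neg] at hfix
    have h2 : (2 : ℕ) • B.pt 1 u = 0 := by
      rw [two_nsmul]; exact add_eq_zero_iff_eq_neg.mpr hfix.symm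
    refine hP0 ?_
    have hco : Nat.Coprime 2 p := (Nat.coprime_primes Nat.prime_two hp.out).mpr (Ne.symm hp2)
    have := Nat.gcd_eq_gcd_ab 2 p
    rw [hco.gcd_eq_one] at this
    calc B.pt 1 u = ((1 : ℕ) : ℤ) • B.pt 1 u := by rw [Nat.cast_one, one_zsmul]
      _ = 0 := by
        rw [this, add_zsmul, mul_comm (2 : ℕ).cast, mul_zsmul, natCast_zsmul, h2, zsmul_zero,
          zero_add, mul_comm, mul_zsmul, natCast_zsmul, hpP, zsmul_zero]

end FLTAgent.LevelMatch
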