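import Fermat.Agent.LevelMatch.Primes
import Fermat.Agent.LevelMatch.Unipotent
import Fermat.Prelude.Def_WeierstrassCurve_ConductorLevel
import Fermat.Prelude.Def_CuspForm_HeckeGaloisRepDatum
import Fermat.Prelude.Def_CuspForm_Newforms
import Fermat.Prelude.Def_GaloisRep_LocalConditions

/-!
A modular semistable curve is modular of level the product of its bad primes, granted the local
behaviour of the representations attached to newforms at the primes of their level.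
-/

set_option autoImplicit false
set_option linter.style.haveILetI false
set_option maxHeartbeats 800000

noncomputable section

open scoped Classical WeierstrassCurve.Affine
open WeierstrassCurve Polynomial CongruenceSubgroup ModularFormClass IsLocalRing

namespace FLTAgent.LevelMatch

local notation "QQb" => AlgebraicClosure ℚ
local notation "GG" => (AlgebraicClosure ℚ ≃ₐ[ℚ] AlgebraicClosure ℚ)

/-- Frobenius polynomials of newform representations at primes exactly dividing the level. -/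
def NewformMultiplicativeLocal : Prop :=
  ∀ {M : ℕ} [NeZero M] {g : CuspForm (CongruenceSubgroup.Gamma0 M) 2} (_ : g.IsNewform)
    (lam : ℕ) [Fact lam.Prime]
    (S : Finset ℕ)
    (O' : Type) [CommRing O'] [IsDomain O'] [IsDiscreteValuationRing O']
    [IsAdicComplete (IsLocalRing.maximalIdeal O') O'] [Finite (IsLocalRing.ResidueField O')]
    [CharZero O'] (_ : (lam : O') ∈ IsLocalRing.maximalIdeal O')
    (chig : CuspForm.heckeAlgebra M 2 (↑S : Set ℕ) →+* ℂ)
    (_ : ∀ (ℓ : ℕ) (hℓ : ℓ.Prime) (hℓM : ¬ ℓ ∣ M) (hℓS : ℓ ∉ (↑S : Set ℕ)),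
      chig (CuspForm.heckeAlgebra.T hℓ hℓM hℓS) = ModularFormClass.qCoeff g ℓ)
    (iota : chig.range →+* O')
    (_ : lam ∈ S) (_ : ∀ q : ℕ, q.Prime → q ∣ M → q ∈ S),
    ∃ (O'' : Type) (_ : CommRing O'') (_ : IsDomain O'') (_ : IsDiscreteValuationRing O'')
      (_ : IsAdicComplete (IsLocalRing.maximalIdeal O'') O'') (_ : Finite (IsLocalRing.ResidueField O''))
      (_ : CharZero O'') (_ : Algebra O' O'') (_ : Module.Finite O' O'') (_ : IsLocalHom (algebraMap O' O'')),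
      Function.Injective (algebraMap O' O'') ∧
      ∃ ρ : GaloisRepAdic O'',
        (∀ (ℓ : ℕ) (hℓ : ℓ.Prime) (hℓM : ¬ ℓ ∣ M) (hℓS : ℓ ∉ (↑S : Set ℕ)),
          ∀ A : ValuationSubring (AlgebraicClosure ℚ), A.LiesOverPrime ℓ →
            ∀ σ : AlgebraicClosure ℚ ≃ₐ[ℚ] AlgebraicClosure ℚ, A.IsFrobeniusAt σ ℓ →
              LinearMap.charpoly (ρ.ρ σ) =
                X ^ 2 - C (algebraMap O' O'' ((iota.comp chig.rangeRestrict) (CuspForm.heckeAlgebra.T hℓ hℓM hℓS))) * X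
                  + C ((ℓ : O''))) ∧
        (∀ q : ℕ, q.Prime → q ≠ lam → q ∣ M → ¬ q ^ 2 ∣ M →
          ∀ A : ValuationSubring (AlgebraicClosure ℚ), A.LiesOverPrime q →
            ∀ σ : AlgebraicClosure ℚ ≃ₐ[ℚ] AlgebraicClosure ℚ, A.IsFrobeniusAt σ q →
              LinearMap.charpoly (ρ.ρ σ) = X ^ 2 - C ((q : O'') + 1) * X + C ((q : O'')) ∨
              LinearMap.charpoly (ρ.ρ σ) = X ^ 2 + C ((q : O'') + 1) * X + C ((q : O'')))

/-- Ramification of newform representations at primes whose square exactly divides the level. -/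
def NewformSquareRamified : Prop :=
  ∀ {M : ℕ} [NeZero M] {g : CuspForm (CongruenceSubgroup.Gamma0 M) 2} (_ : g.IsNewform)
    (lam : ℕ) [Fact lam.Prime]
    (S : Finset ℕ)
    (O' : Type) [CommRing O'] [IsDomain O'] [IsDiscreteValuationRing O']
    [IsAdicComplete (IsLocalRing.maximalIdeal O') O'] [Finite (IsLocalRing.ResidueField O')]
    [CharZero O'] (_ : (lam : O') ∈ IsLocalRing.maximalIdeal O')
    (_ : lam ≠ 2)
    (chig : CuspForm.heckeAlgebra M 2 (↑S : Set ℕ) →+* ℂ)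
    (_ : ∀ (ℓ : ℕ) (hℓ : ℓ.Prime) (hℓM : ¬ ℓ ∣ M) (hℓS : ℓ ∉ (↑S : Set ℕ)),
      chig (CuspForm.heckeAlgebra.T hℓ hℓM hℓS) = ModularFormClass.qCoeff g ℓ)
    (iota : chig.range →+* O')
    (_ : lam ∈ S) (_ : ∀ q : ℕ, q.Prime → q ∣ M → q ∈ S)
    (_ : ∀ (O'' : Type) [CommRing O''] [IsDomain O''] [IsDiscreteValuationRing O'']
      [IsAdicComplete (IsLocalRing.maximalIdeal O'') O''] [Finite (IsLocalRing.ResidueField O'')] [CharZero O'']
      [Algebra O' O''] [Module.Finite O' O''] [IsLocalHom (algebraMap O' O'')],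
      Function.Injective (algebraMap O' O'') → ∀ (ρ : GaloisRepAdic O''),
      (∀ (ℓ : ℕ) (hℓ : ℓ.Prime) (_ : ℓ ≠ lam) (hℓM : ¬ ℓ ∣ M) (hℓS : ℓ ∉ (↑S : Set ℕ)),
        ∀ A : ValuationSubring (AlgebraicClosure ℚ), A.LiesOverPrime ℓ →
          ∀ σ : AlgebraicClosure ℚ ≃ₐ[ℚ] AlgebraicClosure ℚ, A.IsFrobeniusAt σ ℓ →
            LinearMap.charpoly (ρ.ρ σ) =
              X ^ 2 - C (algebraMap O' O'' ((iota.comp chig.rangeRestrict) (CuspForm.heckeAlgebra.T hℓ hℓM hℓS))) * X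
                + C ((ℓ : O'')))
      → ρ.residual.IsAbsolutelyIrreducible ∧ ρ.residual.IsOdd),
    ∃ (O'' : Type) (_ : CommRing O'') (_ : IsDomain O'') (_ : IsDiscreteValuationRing O'')
      (_ : IsAdicComplete (IsLocalRing.maximalIdeal O'') O'') (_ : Finite (IsLocalRing.ResidueField O''))
      (_ : CharZero O'') (_ : Algebra O' O'') (_ : Module.Finite O' O'') (_ : IsLocalHom (algebraMap O' O'')),
      Function.Injective (algebraMap O' O'') ∧
      ∃ ρ : GaloisRepAdic O'',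
        (∀ (ℓ : ℕ) (hℓ : ℓ.Prime) (hℓM : ¬ ℓ ∣ M) (hℓS : ℓ ∉ (↑S : Set ℕ)),
          ∀ A : ValuationSubring (AlgebraicClosure ℚ), A.LiesOverPrime ℓ →
            ∀ σ : AlgebraicClosure ℚ ≃ₐ[ℚ] AlgebraicClosure ℚ, A.IsFrobeniusAt σ ℓ →
              LinearMap.charpoly (ρ.ρ σ) =
                X ^ 2 - C (algebraMap O' O'' ((iota.comp chig.rangeRestrict) (CuspForm.heckeAlgebra.T hℓ hℓM hℓS))) * X
                  + C ((ℓ : O''))) ∧
        (∀ q : ℕ, q.Prime → q ≠ lam → M.factorization q = 2 → ¬ ρ.IsUnipotentOnInertiaAt q)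

variable {M : ℕ} [NeZero M] {g : CuspForm (Gamma0 M) 2}

/-- A homomorphism on an algebra generated over `ℤ` is integral if it is so on generators. -/
theorem exists_intCast_adjoin {E : Type*} [Ring E] (s : Set E) (χ : Algebra.adjoin ℤ s →+* ℂ)
    (h : ∀ (x : E) (hx : x ∈ s), ∃ n : ℤ, χ ⟨x, Algebra.subset_adjoin hx⟩ = n)
    (t : Algebra.adjoin ℤ s) : ∃ n : ℤ, χ t = n := by
  obtain ⟨t, ht⟩ := t
  induction ht using Algebra.adjoin_induction with
  | mem x hx => exact h x hx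
  | algebraMap c =>
    refine ⟨c, ?_⟩
    have e : (⟨algebraMap ℤ E c, Subalgebra.algebraMap_mem _ c⟩ : Algebra.adjoin ℤ s) =
        (c : Algebra.adjoin ℤ s) := Subtype.ext (by simp)
    exact (congrArg χ e).trans (map_intCast χ c)
  | add x y hx hy ih ih' =>
    obtain ⟨a, ha⟩ := ih
    obtain ⟨b, hb⟩ := ih'
    exact ⟨a + b, (map_add χ ⟨x, hx⟩ ⟨y, hy⟩).trans (by rw [ha, hb, Int.cast_add])⟩
  | mul x y hx hy ih ih' =>
    obtain ⟨a, ha⟩ := ih
    obtain ⟨b, hb⟩ := ih'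
    exact ⟨a * b, (map_mul χ ⟨x, hx⟩ ⟨y, hy⟩).trans (by rw [ha, hb, Int.cast_mul])⟩

/-- The eigenvalue system takes integer values when the coefficients are integers. -/
theorem exists_intCast_eigenCharAway (hg : g.IsNormalizedEigenform) (S : Finset ℕ)
    (hMS : ∀ q : ℕ, q.Prime → q ∣ M → q ∈ S)
    (hint : ∀ ℓ : ℕ, ℓ.Prime → ℓ ∉ S → ∃ n : ℤ, qCoeff g ℓ = n)
    (t : CuspForm.heckeAlgebra M 2 (↑S : Set ℕ)) :
    ∃ n : ℤ, EigenReps.eigenCharAway hg (↑S : Set ℕ) t = n := by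
  refine exists_intCast_adjoin (CuspForm.heckeGenerators M 2 (↑S : Set ℕ))
    (EigenReps.eigenCharAway hg (↑S : Set ℕ)) (fun x hx => ?_) t
  rcases hx with ⟨l, hl, hlN, hlS, rfl⟩ | ⟨q, hqN, hq, hqS, rfl⟩
  · obtain ⟨n, hn⟩ := hint l hl hlS
    exact ⟨n, (EigenReps.coe_eigenCharInt_T hg hl hlN hlS).trans hn⟩
  · exact absurd (hMS q hq hqN) hqS

/-- A ring of complex integers maps to `ℤ`. -/
def toIntOfRange {T : Type*} [Ring T] (χ : T →+* ℂ) (h : ∀ x : χ.range, ∃ n : ℤ, (x : ℂ) = n) :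
    χ.range →+* ℤ where
  toFun x := (h x).choose
  map_one' := Int.cast_injective (α := ℂ) (by rw [← (h 1).choose_spec]; simp)
  map_mul' x y := Int.cast_injective (α := ℂ) (by
    rw [Int.cast_mul, ← (h x).choose_spec, ← (h y).choose_spec, ← (h (x * y)).choose_spec]; rfl)
  map_zero' := Int.cast_injective (α := ℂ) (by rw [← (h 0).choose_spec]; simp)
  map_add' x y := Int.cast_injective (α := ℂ) (by
    rw [Int.cast_add, ← (h x).choose_spec, ← (h y).choose_spec, ← (h (x + y)).choose_spec]; rfl)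

theorem exists_int_of_mem_range {T : Type*} [Ring T] (χ : T →+* ℂ)
    (h : ∀ t, ∃ n : ℤ, χ t = n) (x : χ.range) : ∃ n : ℤ, (x : ℂ) = n := by
  obtain ⟨_, t, rfl⟩ := x
  exact h t

/-- The map to a ring from a ring of complex integers. -/
def intOfRange {T : Type*} [Ring T] (χ : T →+* ℂ) (h : ∀ t, ∃ n : ℤ, χ t = n) (R : Type*) [Ring R] :
    χ.range →+* R :=
  (Int.castRingHom R).comp (toIntOfRange χ (exists_int_of_mem_range χ h))

theorem intOfRange_apply {T : Type*} [Ring T] (χ : T →+* ℂ) (h : ∀ t, ∃ n : ℤ, χ t = n)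
    (R : Type*) [Ring R] {t : T} {n : ℤ} (hn : χ t = n) :
    (intOfRange χ h R).comp χ.rangeRestrict t = (n : R) := by
  show ((exists_int_of_mem_range χ h (χ.rangeRestrict t)).choose : R) = n
  congr 1
  apply Int.cast_injective (α := ℂ)
  rw [← (exists_int_of_mem_range χ h (χ.rangeRestrict t)).choose_spec]
  exact hn

theorem padicInt_natCast_mem (l : ℕ) [Fact l.Prime] :
    (l : ℤ_[l]) ∈ IsLocalRing.maximalIdeal ℤ_[l] := by
  rw [PadicInt.maximalIdeal_eq_span_p]; exact Ideal.mem_span_singleton_self _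

theorem finite_padicInt_residue (l : ℕ) [Fact l.Prime] : Finite (ResidueField ℤ_[l]) :=
  Finite.of_equiv _ PadicInt.residueField.symm.toEquiv

/-- The Frobenius polynomials of the curve reduce to those of its torsion. -/
theorem charpoly_residual_eq_resW {W : WeierstrassCurve ℤ} (hW : W.Δ ≠ 0) {l : ℕ}
    [Fact l.Prime] {O : Type} [CommRing O] [IsLocalRing O]
    (hlO : (l : O) ∈ IsLocalRing.maximalIdeal O) (ρ : GaloisRepAdic O) (S : Finset ℕ)
    (h : ∀ ℓ : ℕ, ℓ.Prime → ℓ ∉ S → W.IsGoodPrimeFor ℓ → ℓ ≠ l →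
      ∀ A : ValuationSubring QQb, A.LiesOverPrime ℓ → ∀ τ : GG, A.IsFrobeniusAt τ ℓ →
        LinearMap.charpoly (ρ.ρ τ) = X ^ 2 - C ((W.apOfModel ℓ : ℤ) : O) * X + C (ℓ : O)) :
    ∃ φ : ZMod l →+* ResidueField O, ∀ σ, LinearMap.charpoly (ρ.residual.ρ σ) =
      (LinearMap.charpoly ((resW W hW l).ρ σ)).map φ := by
  haveI : CharP (ResidueField O) l := (CharP.charP_iff_prime_eq_zero Fact.out).mpr (by
    rw [← map_natCast (IsLocalRing.residue O)]
    exact (residue_eq_zero_iff _).mpr hlO)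
  refine ⟨ZMod.castHom dvd_rfl _, fun σ =>
    charpoly_eq_resW hW _ ρ.residual S (fun ℓ hℓ hℓS hgood hne A hA τ hτ => ?_) σ⟩
  rw [charpoly_residual, h ℓ hℓ hℓS hgood hne A hA τ hτ]
  simp

variable {W : WeierstrassCurve ℤ}

/-- A good prime of the curve does not exactly divide the level of the newform. -/
theorem sq_dvd_of_good (H35 : NewformMultiplicativeLocal) (hg : g.IsNewform) (hW : W.Δ ≠ 0)
    (hcoef : ∀ ℓ : ℕ, ℓ.Prime → W.IsGoodPrimeFor ℓ → ¬ ℓ ∣ M → qCoeff g ℓ = (W.apOfModel ℓ : ℂ))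
    {q : ℕ} (hq : q.Prime) (hgood : W.IsGoodPrimeFor q) (hqM : q ∣ M) : q ^ 2 ∣ M := by
  by_contra hq2
  obtain ⟨l, hl, hlp⟩ := Nat.exists_infinite_primes (2 * q + 3)
  haveI : Fact l.Prime := ⟨hlp⟩
  haveI : Fact q.Prime := ⟨hq⟩
  haveI := finite_padicInt_residue l
  set S : Finset ℕ := insert l (M.primeFactors ∪ W.Δ.natAbs.primeFactors) with hS
  have hMS : ∀ r : ℕ, r.Prime → r ∣ M → r ∈ S := fun r hr hrM =>
    Finset.mem_insert_of_mem (Finset.mem_union_left _ (Nat.mem_primeFactors.mpr ⟨hr, hrM, NeZero.ne M⟩))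
  have hgS : ∀ r : ℕ, r.Prime → r ∉ S → W.IsGoodPrimeFor r ∧ ¬ r ∣ M := fun r hr hrS =>
    ⟨fun hd => hrS (Finset.mem_insert_of_mem (Finset.mem_union_right _ (Nat.mem_primeFactors.mpr
      ⟨hr, Int.natCast_dvd.mp hd, Int.natAbs_ne_zero.mpr hW⟩))), fun hd => hrS (hMS r hr hd)⟩
  have hint := exists_intCast_eigenCharAway hg.1 S hMS fun r hr hrS =>
    ⟨_, hcoef r hr (hgS r hr hrS).1 (hgS r hr hrS).2⟩
  obtain ⟨O, _, _, _, _, _, _, _, _, _, -, ρ, hρ, hloc⟩ := H35 hg l S ℤ_[l] (padicInt_natCast_mem l)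
    (EigenReps.eigenCharAway hg.1 (↑S : Set ℕ))
    (fun r hr hrM hrS => EigenReps.coe_eigenCharInt_T hg.1 hr hrM hrS)
    (intOfRange _ hint ℤ_[l]) (Finset.mem_insert_self _ _) hMS
  have hlO : (l : O) ∈ IsLocalRing.maximalIdeal O := by
    rw [← map_natCast (algebraMap ℤ_[l] O)]
    exact map_nonunit (algebraMap ℤ_[l] O) _ (padicInt_natCast_mem l)
  obtain ⟨φ, hφ⟩ := charpoly_residual_eq_resW hW hlO ρ S fun r hr hrS hgr hrl A hA τ hτ => by
    rw [hρ r hr (hgS r hr hrS).2 hrS A hA τ hτ,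
      intOfRange_apply _ hint _
        ((EigenReps.coe_eigenCharInt_T hg.1 hr (hgS r hr hrS).2 hrS).trans
          (hcoef r hr hgr (hgS r hr hrS).2)), map_intCast]
  obtain ⟨A, hA⟩ := Frobenius.exists_liesOverPrime q hq
  obtain ⟨τ, hτ⟩ := Frobenius.exists_isFrobeniusAt A q hq hA
  have e := hφ τ
  rw [charpoly_residual, charpoly_resW_frobenius hW hgood (by omega) hA hτ] at e
  haveI : CharP (ResidueField O) l := (CharP.charP_iff_prime_eq_zero hlp).mpr (by
    rw [← map_natCast (IsLocalRing.residue O)]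
    exact (residue_eq_zero_iff _).mpr hlO)
  have hHasse : (W.apOfModel q) ^ 2 ≤ 4 * (q : ℤ) := by
    haveI := FrobTrace.isElliptic_reductionMod hgood
    obtain ⟨t, y, hy, htr, halg⟩ := FrobTrace.exists_system (W.reductionMod q)
    have := FrobTrace.sq_trace_le (W.reductionMod q) (hy.resolve_right (not_not.mpr inferInstance)) htr
    rwa [ZMod.card] at this
  have hkey : ∀ s : ℤ, s ^ 2 = 1 → ((W.apOfModel q - s * ((q : ℤ) + 1) : ℤ) : ResidueField O) ≠ 0 := by
    intro s hs h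
    rw [CharP.intCast_eq_zero_iff _ l] at h
    have hq2' : (2 : ℤ) ≤ q := by exact_mod_cast hq.two_le
    have h0 : W.apOfModel q - s * ((q : ℤ) + 1) ≠ 0 := fun h0 => by
      rw [sub_eq_zero.mp h0, mul_pow, hs] at hHasse
      nlinarith
    have h1 := Int.le_of_dvd (abs_pos.mpr h0) ((dvd_abs _ _).mpr h)
    have h2 : |W.apOfModel q| ≤ (q : ℤ) + 1 :=
      abs_le_of_sq_le_sq (by nlinarith) (by positivity)
    have h3 : |s| = 1 := by rcases sq_eq_one_iff.mp hs with rfl | rfl <;> rfl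
    have h4 := abs_sub (W.apOfModel q) (s * ((q : ℤ) + 1))
    rw [abs_mul, h3, one_mul, abs_of_nonneg (by positivity : (0 : ℤ) ≤ (q : ℤ) + 1)] at h4
    omega
  rcases hloc q hq (by omega) hqM hq2 A hA τ hτ with h | h <;> rw [h] at e <;>
    have e1 := congrArg (fun P => Polynomial.coeff P 1) e <;>
    simp [Polynomial.coeff_X_pow] at e1
  · refine hkey 1 (one_pow 2) ?_
    push_cast
    linear_combination e1
  · refine hkey (-1) (by norm_num) ?_
    push_cast
    linear_combination e1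

/-- The square of a prime other than `p` does not exactly divide the level of the newform. -/
theorem false_of_sq_dvd (H36 : NewformSquareRamified) (hg : g.IsNewform) (hW : W.Δ ≠ 0)
    (hss : W.IsSemistableModel) {p : ℕ} [hp : Fact p.Prime] (hp2 : p ≠ 2)
    (hirr : W.ModRepIsIrreducible p)
    (hcoef : ∀ ℓ : ℕ, ℓ.Prime → W.IsGoodPrimeFor ℓ → ¬ ℓ ∣ M → qCoeff g ℓ = (W.apOfModel ℓ : ℂ))
    {q : ℕ} (hq : q.Prime) (hqp : q ≠ p) (hfac : M.factorization q = 2) : False := by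
  haveI := finite_padicInt_residue p
  set S : Finset ℕ := insert p (M.primeFactors ∪ W.Δ.natAbs.primeFactors) with hS
  have hMS : ∀ r : ℕ, r.Prime → r ∣ M → r ∈ S := fun r hr hrM =>
    Finset.mem_insert_of_mem (Finset.mem_union_left _ (Nat.mem_primeFactors.mpr ⟨hr, hrM, NeZero.ne M⟩))
  have hgS : ∀ r : ℕ, r.Prime → r ∉ S → W.IsGoodPrimeFor r ∧ ¬ r ∣ M := fun r hr hrS =>
    ⟨fun hd => hrS (Finset.mem_insert_of_mem (Finset.mem_union_right _ (Nat.mem_primeFactors.mpr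
      ⟨hr, Int.natCast_dvd.mp hd, Int.natAbs_ne_zero.mpr hW⟩))), fun hd => hrS (hMS r hr hd)⟩
  have hrp : ∀ r : ℕ, r ∉ S → r ≠ p := fun r hrS e => hrS (e ▸ Finset.mem_insert_self _ _)
  have hint := exists_intCast_eigenCharAway hg.1 S hMS fun r hr hrS =>
    ⟨_, hcoef r hr (hgS r hr hrS).1 (hgS r hr hrS).2⟩
  have hT : ∀ (r : ℕ) (hr : r.Prime) (hrM : ¬ r ∣ M) (hrS : r ∉ (↑S : Set ℕ)),
      (intOfRange _ hint ℤ_[p]).comp (EigenReps.eigenCharAway hg.1 (↑S : Set ℕ)).rangeRestrict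
        (CuspForm.heckeAlgebra.T hr hrM hrS) = ((W.apOfModel r : ℤ) : ℤ_[p]) := fun r hr hrM hrS =>
    intOfRange_apply _ hint _ ((EigenReps.coe_eigenCharInt_T hg.1 hr hrM hrS).trans
      (hcoef r hr (hgS r hr hrS).1 hrM))
  have hirr' : (resW W hW p).IsIrreducible := fun V hV => hirr.2 V hV
  obtain ⟨O, _, _, _, _, _, _, _, _, _, -, ρ, hρ, hram⟩ := H36 hg p S ℤ_[p] (padicInt_natCast_mem p)
    hp2 (EigenReps.eigenCharAway hg.1 (↑S : Set ℕ))
    (fun r hr hrM hrS => EigenReps.coe_eigenCharInt_T hg.1 hr hrM hrS)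
    (intOfRange _ hint ℤ_[p]) (Finset.mem_insert_self _ _) hMS
    (fun O _ _ _ _ _ _ _ _ _ _ ρ hρ => by
      have hlO : (p : O) ∈ IsLocalRing.maximalIdeal O := by
        rw [← map_natCast (algebraMap ℤ_[p] O)]
        exact map_nonunit (algebraMap ℤ_[p] O) _ (padicInt_natCast_mem p)
      obtain ⟨φ, hφ⟩ := charpoly_residual_eq_resW hW hlO ρ S fun r hr hrS hgr hrl A hA τ hτ => by
        rw [hρ r hr hrl (hgS r hr hrS).2 hrS A hA τ hτ, hT r hr _ hrS, map_intCast]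
      haveI : CharP (ResidueField O) p := (CharP.charP_iff_prime_eq_zero hp.out).mpr (by
        rw [← map_natCast (IsLocalRing.residue O)]
        exact (residue_eq_zero_iff _).mpr hlO)
      have h2 : (2 : ZMod p) ≠ 0 := fun h => hp2 (by
        have h' : ((2 : ℕ) : ZMod p) = 0 := by exact_mod_cast h
        exact ((Nat.prime_dvd_prime_iff_eq hp.out Nat.prime_two).mp
          ((ZMod.natCast_eq_zero_iff 2 p).mp h')))
      have hcc1 : complexConjugation ≠ 1 := fun h1 => by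
        obtain ⟨i, hi⟩ := IsAlgClosed.exists_eq_mul_self (-1 : QQb)
        have h2 := complexEmbedding_complexConjugation i
        rw [h1, AlgEquiv.one_apply] at h2
        obtain ⟨x, hx⟩ := Complex.conj_eq_iff_real.mp h2.symm
        have h3 := congrArg complexEmbedding hi
        rw [map_mul, map_neg, map_one, hx] at h3
        have h4 : ((x * x : ℝ) : ℂ) = ((-1 : ℝ) : ℂ) := by push_cast; exact h3.symm
        linarith [Complex.ofReal_inj.mp h4, mul_self_nonneg x]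
      refine ⟨isAbsolutelyIrreducible_of_charpoly h2 (resW W hW p) hirr' complexConjugation
        complexConjugation_mul_self
        (det_resW_involution hW hp2 complexConjugation_mul_self hcc1) φ ρ.residual hφ,
        fun c hc hc1 => ?_⟩
      rw [LinearMap.det_eq_sign_charpoly_coeff, ρ.residual.finrank_eq, hφ, Polynomial.coeff_map]
      have h1 := det_resW_involution (p := p) hW hp2 hc hc1
      rw [LinearMap.det_eq_sign_charpoly_coeff, (resW W hW p).finrank_eq] at h1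
      rw [neg_one_sq, one_mul] at h1 ⊢
      rw [h1, map_neg, map_one])
  refine hram q hq hqp hfac ?_
  -- the Tate module
  obtain ⟨B⟩ := exists_tateBasis_curve hW p
  set r : GG →* Deformation.M2 ℤ_[p] := B.tateRep
  have hr : Deformation.MatCts r := matCts_tateRep hW B
  have hquad : ∀ ℓ : ℕ, ℓ.Prime → ℓ ∉ S → ∀ V : ValuationSubring QQb, V.LiesOverPrime ℓ →
      ∀ τ : GG, V.IsFrobeniusAt τ ℓ →
        r τ * r τ - ((W.apOfModel ℓ : ℤ) : ℤ_[p]) • r τ + (ℓ : ℤ_[p]) • 1 = 0 := by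
    intro ℓ hℓ hℓS V hV τ hτ
    haveI : Fact ℓ.Prime := ⟨hℓ⟩
    exact tate_quad B (hgS ℓ hℓ hℓS).1 (hrp ℓ hℓS) hV hτ
  have hns := exists_not_scalar_tateRep B hirr
  have hpS : p ∈ S := Finset.mem_insert_self _ _
  have hdet : ∀ σ : GG, (∀ n, DetCyclo.CycloExponent p n σ 1) → (r σ).det = 1 := fun σ hσ =>
    DetCyclo.eq_of_forall_sub_mem fun n => by
      simpa using DetCyclo.det_cyclo p (padicInt_natCast_mem p) r hr S hpS
        (fun ℓ => ((W.apOfModel ℓ : ℤ) : ℤ_[p])) hquad hns σ n 1 (hσ n)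
  let φ := algebraMap ℤ_[p] O
  let R : GaloisRepAdic O :=
    Deformation.repOfMatrix (Deformation.mapMat φ r) (hr.map φ inferInstance)
  have hR : ∀ σ, LinearMap.charpoly (R.ρ σ) = (r σ).charpoly.map φ := fun σ => by
    show LinearMap.charpoly (Matrix.toLin' ((r σ).map φ)) = _
    rw [Matrix.charpoly_toLin', Matrix.charpoly_map]
  have heq := Frobenius.charpoly_eq_of_frobenius ρ R S (fun ℓ hℓ hℓS V hV τ hτ => by
    rw [hρ ℓ hℓ (hgS ℓ hℓ hℓS).2 hℓS V hV τ hτ, hT ℓ hℓ _ hℓS, hR, Matrix.charpoly_fin_two]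
    obtain ⟨ht, hd⟩ := DetCyclo.trace_det_frobenius p (padicInt_natCast_mem p) r hr S hpS
      (fun ℓ => ((W.apOfModel ℓ : ℤ) : ℤ_[p])) hquad hns hℓ hℓS hV hτ
    rw [ht, hd]
    simp)
  intro P hP σ hσ
  rw [heq σ, hR]
  have hu := tateRep_inertia B hW hss hp2 hdet hq hqp hP hσ
  have e := fun i j => congrFun (congrFun hu i) j
  have e00 := e 0 0
  have e01 := e 0 1
  have e10 := e 1 0
  have e11 := e 1 1
  simp [sq, Matrix.mul_apply, Fin.sum_univ_two, Matrix.sub_apply] at e00 e01 e10 e11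
  have htr : (r σ 0 0 - 1) + (r σ 1 1 - 1) = 0 := by
    rcases mul_eq_zero.mp (show r σ 0 1 * ((r σ 0 0 - 1) + (r σ 1 1 - 1)) = 0 by
      linear_combination e01) with h | h
    · have h0 : (r σ 0 0 - 1) * (r σ 0 0 - 1) = 0 := by rw [h] at e00; linear_combination e00
      have h1 : (r σ 1 1 - 1) * (r σ 1 1 - 1) = 0 := by rw [h] at e11; linear_combination e11
      rw [mul_self_eq_zero.mp h0, mul_self_eq_zero.mp h1, add_zero]
    · exact h
  have hdt : (r σ).det = 2 * 0 + 1 := by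
    rw [Matrix.det_fin_two]
    linear_combination (-(1 : ℤ_[p])) * e00 + (r σ 0 0) * htr
  rw [Matrix.charpoly_fin_two, Matrix.trace_fin_two, hdt,
    show r σ 0 0 + r σ 1 1 = 2 by linear_combination htr]
  simp only [mul_zero, zero_add, Polynomial.map_add, Polynomial.map_sub, Polynomial.map_mul,
    Polynomial.map_pow, Polynomial.map_X, map_ofNat, map_one, Polynomial.map_one,
    Polynomial.map_ofNat]
  ring

/-- A modular semistable curve is modular at the level of the product of its bad primes. -/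
theorem isModularModelOfLevel_conductorLevel (H35 : NewformMultiplicativeLocal)
    (H36 : NewformSquareRamified)
    (W : WeierstrassCurve ℤ) (hss : W.IsSemistableModel) (N : ℕ)
    (p : ℕ) [Fact p.Prime] (hp2 : p ≠ 2) (hirr : W.ModRepIsIrreducible p)
    (hp2N : ¬ p ^ 2 ∣ N)
    (hN : W.IsModularModelOfLevel N) (hbad : ∀ ℓ : ℕ, ℓ.Prime → (ℓ : ℤ) ∣ W.Δ → ℓ ∣ N)
    (hN3 : ∀ q : ℕ, q.Prime → ¬ q ^ 3 ∣ N) :
    W.IsModularModelOfLevel W.conductorLevel := by
  have hN0 : N ≠ 0 := fun h => hN3 2 Nat.prime_two (h ▸ dvd_zero _)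
  have hW : W.Δ ≠ 0 := fun h => by
    obtain ⟨l, hl, hlp⟩ := Nat.exists_infinite_primes (N + 1)
    have := Nat.le_of_dvd (Nat.pos_of_ne_zero hN0) (hbad l hlp (h ▸ dvd_zero _))
    omega
  obtain ⟨f, hf, hfW⟩ := hN
  have hex : ∃ M, M ∣ N ∧ CuspForm.GoodEigensystemOccursAt f M :=
    ⟨N, dvd_rfl, CuspForm.GoodEigensystemOccursAt.refl hf⟩
  set M := Nat.find hex
  obtain ⟨hMN, g, hg, hgf⟩ := Nat.find_spec hex
  haveI : NeZero M := ⟨fun h => hN0 (Nat.eq_zero_of_zero_dvd (h ▸ hMN))⟩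
  have hnew : g.IsNewform := by
    refine ⟨hg, fun M' hM' hne ⟨g', hg', hgg'⟩ => ?_⟩
    have hlt : M' < M := lt_of_le_of_ne (Nat.le_of_dvd (Nat.pos_of_ne_zero (NeZero.ne M)) hM') hne
    refine Nat.find_min hex hlt ⟨hM'.trans hMN, g', hg', fun ℓ hℓ hℓN => ?_⟩
    exact (hgg' ℓ hℓ fun h => hℓN (h.trans hMN)).trans (hgf ℓ hℓ hℓN)
  have hagree : ∀ ℓ : ℕ, ℓ.Prime → W.IsGoodPrimeFor ℓ → ¬ ℓ ∣ N →
      qCoeff g ℓ = (W.apOfModel ℓ : ℂ) := fun ℓ hℓ hgood hℓN =>
    (hgf ℓ hℓ hℓN).trans (hfW ℓ hℓ hgood hℓN)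
  have hcoef : ∀ ℓ : ℕ, ℓ.Prime → W.IsGoodPrimeFor ℓ → ¬ ℓ ∣ M →
      qCoeff g ℓ = (W.apOfModel ℓ : ℂ) := fun ℓ hℓ hgood hℓM =>
    qCoeff_eq_of_good hW hN0 hg hagree hℓ hgood hℓM
  have hfac : ∀ q : ℕ, q.Prime → q ^ 2 ∣ M → False := by
    intro q hq hq2
    haveI : Fact q.Prime := ⟨hq⟩
    have hqp : q ≠ p := fun h => hp2N (h ▸ hq2.trans hMN)
    refine false_of_sq_dvd H36 hnew hW hss hp2 hirr hcoef hq hqp ?_
    have h2 := (hq.pow_dvd_iff_le_factorization (NeZero.ne M)).mp hq2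
    have h3 : ¬ 3 ≤ M.factorization q := fun h =>
      hN3 q hq (((hq.pow_dvd_iff_le_factorization (NeZero.ne M)).mpr h).trans hMN)
    exact le_antisymm (Nat.lt_succ_iff.mp (not_le.mp h3)) h2
  have hsq : Squarefree M := Nat.squarefree_iff_prime_squarefree.mpr fun q hq h =>
    hfac q hq (by rwa [sq])
  have hM : M = W.conductorLevel := by
    refine (Nat.Squarefree.ext_iff hsq W.squarefree_conductorLevel).mpr fun q hq => ?_
    rw [W.prime_dvd_conductorLevel_iff hW hq]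
    exact ⟨fun h => by_contra fun hgood => hfac q hq (sq_dvd_of_good H35 hnew hW hcoef hq hgood h),
      fun h => dvd_level_of_bad hW hN0 hg hagree hq h (hss q hq h)⟩
  rw [← hM]
  exact ⟨g, hg, hcoef⟩

end FLTAgent.LevelMatch
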