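import Fermat.Agent.FrobTrace.Det
import Fermat.Agent.Torsion.Residual
import Fermat.Agent.Frobenius.Global
import Fermat.Prelude.Def_FLTPrelim_ModularRep
import Fermat.Prelude.Def_GaloisRep_ComplexConjugation

/-!
The mod `p` representation of a curve over `ℚ` and representations with the same characteristic
polynomials.
-/

set_option autoImplicit false
set_option linter.style.haveILetI false

noncomputable section

open scoped Classical WeierstrassCurve.Affine TensorProduct
open WeierstrassCurve WeierstrassCurve.Affine WeierstrassCurve.Affine.Point Polynomial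

namespace FLTAgent.LevelMatch

local notation "QQb" => AlgebraicClosure ℚ
local notation "GG" => (AlgebraicClosure ℚ ≃ₐ[ℚ] AlgebraicClosure ℚ)

/-- The mod `p` representation of a model over `ℤ`. -/
def resW (W : WeierstrassCurve ℤ) (hW : W.Δ ≠ 0) (p : ℕ) [Fact p.Prime] :
    ResidualGaloisRep (ZMod p) :=
  haveI : WeierstrassCurve.IsElliptic (W.map (Int.castRingHom ℚ)) :=
    ⟨by rw [WeierstrassCurve.map_Δ]; exact isUnit_iff_ne_zero.mpr (by simpa using hW)⟩
  (W.map (Int.castRingHom ℚ)).residualGaloisRepOf p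
    (Torsion.card_torsionBy_rat _ (Fact.out : p.Prime).ne_zero)
    (Torsion.galoisFactorsThroughFiniteLevel_torsion _ (Fact.out : p.Prime).ne_zero)

/-- The characteristic polynomial at a good prime. -/
theorem charpoly_resW_frobenius {W : WeierstrassCurve ℤ} (hW : W.Δ ≠ 0) {p : ℕ} [Fact p.Prime]
    {ℓ : ℕ} [Fact ℓ.Prime] (hgood : W.IsGoodPrimeFor ℓ) (hne : p ≠ ℓ)
    {A : ValuationSubring QQb} (hA : A.LiesOverPrime ℓ) {τ : GG} (hτ : A.IsFrobeniusAt τ ℓ) :
    LinearMap.charpoly ((resW W hW p).ρ τ) =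
      X ^ 2 - C (W.apOfModel ℓ : ZMod p) * X + C (ℓ : ZMod p) := by
  haveI : Module.Finite (ZMod p) (Submodule.torsionBy ℤ
      ((W.map (Int.castRingHom ℚ))⁄(AlgebraicClosure ℚ)).Point p) :=
    ResidualGaloisRep.instModuleFinite (resW W hW p)
  exact FrobTrace.charpoly_eq hgood hne hA hτ

variable {k k' : Type} [Field k] [Field k']

theorem charpoly_baseChangeAlong (φ : k →+* k') (ρ : ResidualGaloisRep k) (σ : GG) :
    LinearMap.charpoly ((ρ.baseChangeAlong φ).ρ σ) = (LinearMap.charpoly (ρ.ρ σ)).map φ := by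
  letI : Algebra k k' := φ.toAlgebra
  show LinearMap.charpoly ((ρ.ρ σ).baseChange k') = _
  rw [LinearMap.charpoly_baseChange]
  rfl

theorem charpoly_residual {A : Type} [CommRing A] [IsLocalRing A] (ρ : GaloisRepAdic A) (σ : GG) :
    LinearMap.charpoly (ρ.residual.ρ σ) =
      (LinearMap.charpoly (ρ.ρ σ)).map (IsLocalRing.residue A) := by
  show LinearMap.charpoly ((ρ.ρ σ).baseChange (IsLocalRing.ResidueField A)) = _
  rw [LinearMap.charpoly_baseChange]
  rfl

/-- A representation with the Frobenius polynomials of the curve has the characteristic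
polynomials of its `p`-torsion. -/
theorem charpoly_eq_resW {W : WeierstrassCurve ℤ} (hW : W.Δ ≠ 0) {p : ℕ} [Fact p.Prime]
    (φ : ZMod p →+* k) (ρ : ResidualGaloisRep k) (S : Finset ℕ)
    (h : ∀ ℓ : ℕ, ℓ.Prime → ℓ ∉ S → W.IsGoodPrimeFor ℓ → ℓ ≠ p →
      ∀ A : ValuationSubring QQb, A.LiesOverPrime ℓ → ∀ τ : GG, A.IsFrobeniusAt τ ℓ →
        LinearMap.charpoly (ρ.ρ τ) = X ^ 2 - C ((W.apOfModel ℓ : ℤ) : k) * X + C (ℓ : k))
    (σ : GG) :
    LinearMap.charpoly (ρ.ρ σ) = (LinearMap.charpoly ((resW W hW p).ρ σ)).map φ := by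
  rw [← charpoly_baseChangeAlong]
  refine Frobenius.residual_charpoly_eq_of_frobenius ρ _ (insert p (S ∪ W.Δ.natAbs.primeFactors))
    (fun ℓ hℓ hℓS A hA τ hτ => ?_) σ
  rw [Finset.mem_insert, Finset.mem_union, not_or, not_or] at hℓS
  haveI : Fact ℓ.Prime := ⟨hℓ⟩
  have hgood : W.IsGoodPrimeFor ℓ := fun hd => hℓS.2.2
    (Nat.mem_primeFactors.mpr ⟨hℓ, Int.natCast_dvd.mp hd, Int.natAbs_ne_zero.mpr hW⟩)
  rw [h ℓ hℓ hℓS.2.1 hgood hℓS.1 A hA τ hτ, charpoly_baseChangeAlong,
    charpoly_resW_frobenius hW hgood (Ne.symm hℓS.1) hA hτ]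
  simp

/-- An eigenvector of the torsion gives a root of the characteristic polynomial. -/
theorem isRoot_charpoly_resW {W : WeierstrassCurve ℤ} (hW : W.Δ ≠ 0) {p : ℕ} [Fact p.Prime]
    {τ : GG} {P : ((W.map (Int.castRingHom ℚ))⁄(AlgebraicClosure ℚ)).Point} (hP0 : P ≠ 0)
    (hP : p • P = 0) (m : ℤ) (hτ : τ • P = m • P) :
    (LinearMap.charpoly ((resW W hW p).ρ τ)).IsRoot (m : ZMod p) := by
  let P' : (resW W hW p).V := (⟨P, Torsion.mem_torsionBy_iff_nsmul.mpr hP⟩ :
    Submodule.torsionBy ℤ ((W.map (Int.castRingHom ℚ))⁄(AlgebraicClosure ℚ)).Point p)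
  rw [← Module.End.hasEigenvalue_iff_isRoot_charpoly]
  refine Module.End.hasEigenvalue_of_hasEigenvector (x := P') ⟨?_, ?_⟩
  · rw [Module.End.mem_eigenspace_iff]
    refine Eq.trans ?_ (Int.cast_smul_eq_zsmul (ZMod p) m P').symm
    exact Subtype.ext hτ
  · exact fun e => hP0 (congrArg Subtype.val e)

/-- Characteristic polynomials of an irreducible odd representation determine absolute
irreducibility. -/
theorem isAbsolutelyIrreducible_of_charpoly {k₀ : Type} [Field k₀] (h2 : (2 : k₀) ≠ 0)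
    (R₀ : ResidualGaloisRep k₀) (hirr : R₀.IsIrreducible) (c : GG) (hc : c * c = 1)
    (hdet : LinearMap.det (R₀.ρ c) = -1) (φ : k₀ →+* k) (ρ : ResidualGaloisRep k)
    (h : ∀ σ, LinearMap.charpoly (ρ.ρ σ) = (LinearMap.charpoly (R₀.ρ σ)).map φ) :
    ρ.IsAbsolutelyIrreducible := by
  intro W hW
  by_contra hcon
  rw [not_or] at hcon
  set K := AlgebraicClosure k
  set ψ : k₀ →+* K := (algebraMap k K).comp φ
  have hfr : Module.finrank K W = 1 := by
    show Module.finrank (AlgebraicClosure k) W = 1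
    have h1 := Submodule.finrank_lt hcon.2
    rw [(ρ.baseChange (AlgebraicClosure k)).finrank_eq] at h1
    haveI : Nontrivial W := (Submodule.nontrivial_iff_ne_bot).mpr hcon.1
    have h0 : 0 < Module.finrank (AlgebraicClosure k) W := Module.finrank_pos
    omega
  obtain ⟨v, hv0, hv⟩ := finrank_eq_one_iff'.mp hfr
  have hchar : ∀ σ, ∃ x : K, (ρ.baseChange K).ρ σ v = x • (v : (ρ.baseChange K).V) := fun σ => by
    obtain ⟨x, hx⟩ := hv ⟨_, hW σ v v.2⟩
    exact ⟨x, (congrArg Subtype.val hx).symm⟩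
  choose χ hχ using hchar
  have hv0' : (v : (ρ.baseChange K).V) ≠ 0 := fun e => hv0 (Subtype.ext e)
  have hmul : ∀ σ τ, χ (σ * τ) = χ σ * χ τ := fun σ τ => by
    refine smul_left_injective K hv0' ?_
    show χ (σ * τ) • (v : (ρ.baseChange K).V) = (χ σ * χ τ) • (v : (ρ.baseChange K).V)
    rw [← hχ, map_mul, Module.End.mul_apply, hχ τ, map_smul, hχ σ, smul_smul, mul_comm]
  have hχ1 : χ 1 = 1 := by
    refine smul_left_injective K hv0' ?_
    show χ 1 • (v : (ρ.baseChange K).V) = (1 : K) • (v : (ρ.baseChange K).V)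
    rw [← hχ, map_one, one_smul]; rfl
  have hroot : ∀ σ, ((LinearMap.charpoly (R₀.ρ σ)).map ψ).IsRoot (χ σ) := fun σ => by
    rw [← Polynomial.map_map, ← h σ, ← LinearMap.charpoly_baseChange,
      ← Module.End.hasEigenvalue_iff_isRoot_charpoly]
    exact Module.End.hasEigenvalue_of_hasEigenvector
      (x := (v : (ρ.baseChange K).V)) ⟨Module.End.mem_eigenspace_iff.mpr (hχ σ), hv0'⟩
  -- diagonalise the involution
  set f := R₀.ρ c
  have hf2 : f * f = 1 := by rw [← map_mul, hc, map_one]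
  let b₀ := Module.finBasisOfFinrankEq k₀ R₀.V R₀.finrank_eq
  set F := LinearMap.toMatrixAlgEquiv b₀ f with hF
  have hFd : F.det = -1 := (LinearMap.det_toMatrix b₀ f).trans hdet
  have hF2 : F * F = 1 := by rw [hF, ← map_mul, hf2, map_one]
  have e := fun i j => congrFun (congrFun hF2 i) j
  have e00 := e 0 0
  have e01 := e 0 1
  have e10 := e 1 0
  have e11 := e 1 1
  simp [Matrix.mul_apply, Fin.sum_univ_two] at e00 e01 e10 e11
  rw [Matrix.det_fin_two] at hFd
  have htr : F 0 0 + F 1 1 = 0 := by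
    have h3 : (F 0 0 + F 1 1) ^ 2 = 0 := by
      linear_combination e00 + e11 + 2 * hFd
    exact pow_eq_zero_iff two_ne_zero |>.mp h3
  have hcp : LinearMap.charpoly f = X ^ 2 - C 1 := by
    rw [← LinearMap.charpoly_toMatrix f b₀]
    show F.charpoly = _
    rw [Matrix.charpoly_fin_two, Matrix.trace_fin_two, htr, Matrix.det_fin_two, hFd]
    simp [sub_eq_add_neg]
  have heig : ∀ e : k₀, e * e = 1 → ∃ x, f x = e • x ∧ x ≠ 0 := fun e he => by
    obtain ⟨x, hx⟩ := (Module.End.hasEigenvalue_iff_isRoot_charpoly f e).mpr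
      (by rw [hcp]; simp [sq, he]) |>.exists_hasEigenvector
    exact ⟨x, Module.End.mem_eigenspace_iff.mp hx.1, hx.2⟩
  obtain ⟨x, hx, hx0⟩ := heig 1 (one_mul 1)
  obtain ⟨y, hy, hy0⟩ := heig (-1) (by ring)
  rw [one_smul] at hx
  rw [neg_smul, one_smul] at hy
  have hli : LinearIndependent k₀ ![x, y] := by
    rw [LinearIndependent.pair_iff]
    intro s t hst
    have h1 := congrArg f hst
    rw [map_add, map_smul, map_smul, hx, hy, _root_.map_zero] at h1
    have h2x : (2 * s) • x = 0 := by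
      calc (2 * s) • x = (s • x + t • y) + (s • x + t • -y) := by rw [smul_neg]; module
        _ = 0 := by rw [hst, h1, add_zero]
    have hs : s = 0 := ((smul_eq_zero.mp h2x).resolve_right hx0 |> mul_eq_zero.mp).resolve_left h2
    rw [hs, zero_smul, zero_add] at hst
    exact ⟨hs, (smul_eq_zero.mp hst).resolve_right hy0⟩
  let b := basisOfLinearIndependentOfCardEqFinrank hli (by rw [R₀.finrank_eq]; rfl)
  set M : GG →* Matrix (Fin 2) (Fin 2) k₀ :=
    (LinearMap.toMatrixAlgEquiv b).toRingEquiv.toRingHom.toMonoidHom.comp R₀.ρ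
  have hb : b 0 = x ∧ b 1 = y := by
    simp [b, coe_basisOfLinearIndependentOfCardEqFinrank]
  have hMc : M c = Matrix.diagonal ![1, -1] := by
    ext i j
    show LinearMap.toMatrixAlgEquiv b f i j = _
    rw [LinearMap.toMatrixAlgEquiv_apply]
    fin_cases i <;> fin_cases j <;> simp [hb.1, hb.2, hx, hy] <;>
      simp [← hb.1, ← hb.2]
  have hroot' : ∀ σ, χ σ ^ 2 - ψ ((M σ).trace) * χ σ + ψ (M σ).det = 0 := fun σ => by
    have h1 := hroot σ
    rw [← LinearMap.charpoly_toMatrix (R₀.ρ σ) b] at h1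
    change ((M σ).charpoly.map ψ).IsRoot (χ σ) at h1
    rw [Matrix.charpoly_fin_two] at h1
    simpa using h1
  have hχc : χ c * χ c = 1 := by rw [← hmul, hc, hχ1]
  have hχ0 : ∀ σ, χ σ ≠ 0 := fun σ e => one_ne_zero (α := K) (by
    rw [← hχ1, ← mul_inv_cancel σ, hmul, e, zero_mul])
  have h2K : (2 : K) ≠ 0 := by
    rw [← map_ofNat ψ 2]; exact (map_ne_zero ψ).mpr h2
  have hdiag : ∀ σ, (χ c = 1 → χ σ = ψ (M σ 0 0)) ∧ (χ c = -1 → χ σ = ψ (M σ 1 1)) := fun σ => by
    have h1 := hroot' σ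
    have h2 := hroot' (c * σ)
    rw [hmul, map_mul, hMc] at h2
    simp [Matrix.trace_fin_two, Matrix.det_fin_two] at h1 h2
    constructor <;> intro he <;> rw [he] at h2 <;>
      refine mul_left_cancel₀ (mul_ne_zero h2K (hχ0 σ)) ?_
    · linear_combination h1 + h2
    · linear_combination h1 + h2
  have main : ∀ (i j : Fin 2), i ≠ j → (∀ σ, χ σ = ψ (M σ i i)) → False := by
    intro i j hij hd
    have hz : ∀ σ τ, M σ i j * M τ j i = 0 := fun σ τ => by
      refine ψ.injective ?_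
      rw [map_mul, _root_.map_zero]
      have h1 := hd (σ * τ)
      rw [hmul, hd σ, hd τ, map_mul, Matrix.mul_apply, Fin.sum_univ_two] at h1
      fin_cases i <;> fin_cases j <;> simp [-mul_eq_zero] at hij h1 ⊢ <;> linear_combination h1
    -- one of the coordinate lines is stable
    have hline : ∀ a a' : Fin 2, a ≠ a' → (∀ σ, M σ a' a = 0) → False := by
      intro a a' haa hs
      have hst : ∀ σ, ∀ z ∈ (k₀ ∙ b a), R₀.ρ σ z ∈ (k₀ ∙ b a) := by
        intro σ z hz
        obtain ⟨s, rfl⟩ := Submodule.mem_span_singleton.mp hz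
        rw [map_smul]
        refine Submodule.smul_mem _ _ (Submodule.mem_span_singleton.mpr ⟨M σ a a, ?_⟩)
        have hs' := hs σ
        change LinearMap.toMatrixAlgEquiv b (R₀.ρ σ) a' a = 0 at hs'
        show LinearMap.toMatrixAlgEquiv b (R₀.ρ σ) a a • b a = _
        rw [LinearMap.toMatrixAlgEquiv_apply] at hs' ⊢
        conv_rhs => rw [← b.sum_repr (R₀.ρ σ (b a)), Fin.sum_univ_two]
        fin_cases a <;> fin_cases a' <;> simp at haa hs' ⊢ <;> simp [hs']
      rcases hirr _ hst with hbot | htop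
      · exact b.ne_zero a (Submodule.span_singleton_eq_bot.mp hbot)
      · have h1 := finrank_span_singleton (K := k₀) (b.ne_zero a)
        rw [htop, finrank_top, R₀.finrank_eq] at h1
        norm_num at h1
    by_cases hs : ∀ σ, M σ i j = 0
    · exact hline j i hij.symm hs
    · push Not at hs
      obtain ⟨σ₀, hσ₀⟩ := hs
      exact hline i j hij fun τ => (mul_eq_zero.mp (hz σ₀ τ)).resolve_left hσ₀
  rcases mul_self_eq_one_iff.mp hχc with he | he
  · exact main 0 1 (by decide) fun σ => (hdiag σ).1 he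
  · exact main 1 0 (by decide) fun σ => (hdiag σ).2 he

/-- An involution of an algebraically closed field inverts roots of unity of odd prime order. -/
theorem involution_pow_eq_one {L : Type*} [Field L] [IsAlgClosed L] [CharZero L] (c : L →+* L)
    (hc : ∀ x, c (c x) = x) (hne : ∃ x, c x ≠ x) {p : ℕ} (hp : Odd p) {ζ : L} (hζ : ζ ^ p = 1) :
    c ζ * ζ = 1 := by
  have dich : ∀ a, c a = a → ∃ u, c u = u ∧ (u ^ 2 = a ∨ u ^ 2 = -a) := by
    intro a ha
    obtain ⟨b, hb⟩ := IsAlgClosed.exists_eq_mul_self a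
    have hcb : c b = b ∨ c b = -b := mul_self_eq_mul_self_iff.mp (by rw [← map_mul, ← hb, ha])
    rcases hcb with h | h
    · exact ⟨b, h, Or.inl (by rw [sq, ← hb])⟩
    · obtain ⟨d, hd⟩ := IsAlgClosed.exists_eq_mul_self b
      refine ⟨d * c d, by rw [map_mul, hc, mul_comm], Or.inr ?_⟩
      rw [show (d * c d) ^ 2 = d * d * (c d * c d) by ring, ← map_mul, ← hd, h, hb]
      ring
  have hneg : ∀ u, c u = u → u ^ 2 ≠ -1 := by
    intro u hu he
    obtain ⟨x, hx⟩ := hne
    set y := x - c x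
    have hy : c y = -y := by simp only [y, map_sub, hc]; ring
    have hy2 : c (y ^ 2) = y ^ 2 := by rw [map_pow, hy, neg_sq]
    obtain ⟨w, hw, hw2⟩ := dich _ hy2
    have hfix : c y = y := by
      rcases hw2 with h | h
      · rcases mul_self_eq_mul_self_iff.mp (show y * y = w * w by linear_combination -h) with e | e
        · rw [e, hw]
        · rw [e, map_neg, hw]
      · rcases mul_self_eq_mul_self_iff.mp
          (show y * y = (u * w) * (u * w) by linear_combination (-(w ^ 2)) * he + h) with e | e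
        · rw [e, map_mul, hu, hw]
        · rw [e, map_neg, map_mul, hu, hw]
    exact hx (sub_eq_zero.mp (show y = 0 by linear_combination (hfix.symm.trans hy) / 2)).symm
  have hsum : ∀ x y, c x = x → c y = y → ∃ u, c u = u ∧ u ^ 2 = x ^ 2 + y ^ 2 := by
    intro x y hx hy
    obtain ⟨i, hi⟩ := IsAlgClosed.exists_eq_mul_self (-1 : L)
    have hci : c i = -i := by
      have h : c i = i ∨ c i = -i :=
        mul_self_eq_mul_self_iff.mp (by rw [← map_mul, ← hi, map_neg, map_one])
      exact h.resolve_left fun e => hneg i e (by rw [sq, ← hi])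
    obtain ⟨w, hw⟩ := IsAlgClosed.exists_eq_mul_self (x + y * i)
    refine ⟨w * c w, by rw [map_mul, hc, mul_comm], ?_⟩
    rw [show (w * c w) ^ 2 = w * w * (c w * c w) by ring, ← map_mul, ← hw, map_add, map_mul, hx,
      hy, hci]
    linear_combination y ^ 2 * hi
  set z := c ζ * ζ with hz
  have hzc : c z = z := by rw [hz, map_mul, hc, mul_comm]
  have hzp : z ^ p = 1 := by rw [hz, mul_pow, ← map_pow, hζ, map_one, mul_one]
  by_contra hz1
  have hS : ∀ m : ℕ, ∃ u, c u = u ∧ u ^ 2 = ∑ i ∈ Finset.range m, z ^ (i + 1) := by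
    intro m
    induction m with
    | zero => exact ⟨0, map_zero c, by simp⟩
    | succ m ih =>
      obtain ⟨u, hu, hu2⟩ := ih
      obtain ⟨k, hk⟩ := hp
      obtain ⟨w, hw, hw2⟩ := hsum u (z ^ ((m + 1) * (k + 1))) hu (by rw [map_pow, hzc])
      refine ⟨w, hw, ?_⟩
      rw [Finset.sum_range_succ, hw2, hu2, ← pow_mul,
        show (m + 1) * (k + 1) * 2 = (m + 1) + p * (m + 1) by rw [hk]; ring, pow_add, pow_mul,
        hzp, one_pow, mul_one]
  obtain ⟨k, hk⟩ := hp
  obtain ⟨u, hu, hu2⟩ := hS (2 * k)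
  refine hneg u hu ?_
  have hgeo := geom_sum_mul z (2 * k + 1)
  rw [← hk, hzp, sub_self, mul_eq_zero, or_iff_left (sub_ne_zero.mpr hz1), hk,
    Finset.sum_range_succ'] at hgeo
  rw [hu2]
  linear_combination hgeo

/-- Involutions have determinant `-1` on the torsion. -/
theorem det_resW_involution {W : WeierstrassCurve ℤ} (hW : W.Δ ≠ 0) {p : ℕ} [hp : Fact p.Prime]
    (hp2 : p ≠ 2) {c : GG} (hc : c * c = 1) (hc1 : c ≠ 1) :
    LinearMap.det ((resW W hW p).ρ c) = -1 := by
  haveI : Algebra.IsAlgebraic ℚ QQb := AlgebraicClosure.isAlgebraic ℚ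
  haveI : NeZero p := ⟨hp.out.ne_zero⟩
  haveI : NeZero ((p : ℕ) : QQb) := ⟨Nat.cast_ne_zero.mpr hp.out.ne_zero⟩
  have hn : Nat.card (rootsOfUnity p QQb) = p := HasEnoughRootsOfUnity.natCard_rootsOfUnity _ _
  refine (FrobTrace.det_eq_cyclotomic W hW hn c).trans ?_
  have hne : ∃ x, (c : QQb →+* QQb) x ≠ x := by
    by_contra h
    push Not at h
    exact hc1 (AlgEquiv.ext h)
  have hu := modularCyclotomicCharacter.unique (L := QQb) (hn := hn) (c : QQb ≃+* QQb)
    (c := ((p - 1 : ℕ) : ZMod p)) fun t ht => ?_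
  · rw [← hu, Nat.cast_sub hp.out.one_le, ZMod.natCast_self, Nat.cast_one, zero_sub]
  · have ht' : (t : QQb) ^ p = 1 := by
      simpa using congrArg Units.val ((mem_rootsOfUnity p t).mp ht)
    have h := involution_pow_eq_one (c : QQb →+* QQb) (fun x => AlgEquiv.congr_fun hc x) hne
      (hp.out.odd_of_ne_two hp2) ht'
    show c (t : QQb) = _
    rw [ZMod.val_natCast, Nat.mod_eq_of_lt (Nat.sub_lt hp.out.pos one_pos)]
    refine mul_right_cancel₀ (t.ne_zero) ?_
    rw [← pow_succ, Nat.sub_add_cancel hp.out.one_le, ht']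
    exact h

end FLTAgent.LevelMatch
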