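import Fermat.Agent.CuspForms.EigenChar
import Fermat.Prelude.Def_FLTPrelim_ModularRep
import Mathlib.NumberTheory.ModularForms.Bounds

/-!
The strict bound `|a_q| < q + 1` at primes not dividing the level.
-/

set_option autoImplicit false
set_option linter.style.haveILetI false

noncomputable section

open UpperHalfPlane hiding I
open CongruenceSubgroup ModularFormClass Filter Topology
open scoped MatrixGroups ModularForm Modular Pointwise

namespace FLTAgent.LevelMatch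

variable {N : ℕ} [NeZero N]

omit [NeZero N] in
theorem norm_petersson_self (f : CuspForm (Gamma0 N) 2) (τ : ℍ) :
    ‖petersson 2 ⇑f ⇑f τ‖ = (‖f τ‖ * τ.im) ^ 2 := by
  simp [petersson, abs_of_pos τ.im_pos]
  ring

open ConjAct Matrix.SpecialLinearGroup in
theorem petersson_tendsto_zero (f : CuspForm (Gamma0 N) 2) (g : SL(2, ℤ)) :
    Tendsto (fun τ => ‖petersson 2 ⇑f ⇑f (g • τ)‖) atImInfty (𝓝 0) := by
  have h2 : IsZeroAtImInfty (fun τ => petersson 2 ⇑f ⇑f (g • τ)) := by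
    simp_rw [← UpperHalfPlane.petersson_slash_SL]
    have : ((toConjAct (g : GL (Fin 2) ℝ)⁻¹) • (Gamma0 N : Subgroup (GL (Fin 2) ℝ))).IsArithmetic := by
      simpa [(show Rat.castHom ℝ = algebraMap ℚ ℝ by rfl), map_inv, map_mapGL]
        using! Subgroup.IsArithmetic.conj (Gamma0 N : Subgroup (GL (Fin 2) ℝ)) (mapGL ℚ g)⁻¹
    exact (CuspFormClass.zero_at_infty <| CuspForm.translate f g).petersson_isZeroAtImInfty_left 2 _
      (ModularForm.translate f g)
  exact tendsto_zero_iff_norm_tendsto_zero.mp h2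

/-- The function `Im τ |f(τ)|` of a nonzero cusp form attains its maximum. -/
theorem exists_max_im_mul_norm {f : CuspForm (Gamma0 N) 2} (hf : f ≠ 0) :
    ∃ τ₀ : ℍ, 0 < ‖f τ₀‖ * τ₀.im ∧ ∀ τ : ℍ, ‖f τ‖ * τ.im ≤ ‖f τ₀‖ * τ₀.im := by
  set H : ℍ → ℝ := fun τ => ‖petersson 2 ⇑f ⇑f τ‖ with hH
  have hinv : ∀ j ∈ Gamma0 N, ∀ τ : ℍ, H (j • τ) = H τ := fun j hj τ =>
    SlashInvariantFormClass.norm_petersson_smul (Γ := (Gamma0 N : Subgroup (GL (Fin 2) ℝ)))
      (f := f) (f' := f) (g := Matrix.SpecialLinearGroup.mapGL ℝ j) (Subgroup.mem_map_of_mem _ hj)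
  obtain ⟨τ₁, hτ₁⟩ : ∃ τ₁, f τ₁ ≠ 0 := by
    by_contra h
    push Not at h
    exact hf (DFunLike.ext _ _ h)
  have hB : 0 < H τ₁ := by
    rw [hH]; simp only [norm_petersson_self]
    have := τ₁.im_pos
    positivity
  haveI : Fintype (SL(2, ℤ) ⧸ Gamma0 N) := Subgroup.fintypeQuotientOfFiniteIndex
  set r : SL(2, ℤ) ⧸ Gamma0 N → SL(2, ℤ) := fun c => c.out⁻¹
  have hev : ∀ c, ∀ᶠ τ in atImInfty, H (r c • τ) < H τ₁ := fun c =>
    (petersson_tendsto_zero f (r c)).eventually (gt_mem_nhds hB)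
  have hall := (eventually_all.mpr hev)
  rw [atImInfty, eventually_comap, eventually_atTop] at hall
  obtain ⟨y, hy⟩ := hall
  have hrep : ∀ τ : ℍ, ∃ c, ∃ σ ∈ 𝒟, H τ = H (r c • σ) := by
    intro τ
    obtain ⟨g, hg⟩ := ModularGroup.exists_smul_mem_fd τ
    refine ⟨(g : SL(2, ℤ) ⧸ Gamma0 N), g • τ, hg, ?_⟩
    obtain ⟨j, hj⟩ := QuotientGroup.mk_out_eq_mul (Gamma0 N) g
    simp only [r]
    rw [hj, mul_inv_rev, mul_smul, inv_smul_smul, hinv _ (inv_mem j.2)]
  set K := ModularGroup.truncatedFundamentalDomain y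
  have hcont : Continuous H := by
    rw [hH]; fun_prop
  obtain ⟨c₁, σ₁, hσ₁, e₁⟩ := hrep τ₁
  have hσ₁K : σ₁ ∈ K := by
    refine ⟨hσ₁, le_of_lt ?_⟩
    by_contra h
    rw [not_lt] at h
    exact absurd (hy _ h σ₁ rfl c₁) (by rw [← e₁]; exact lt_irrefl _)
  have hmax : ∀ c, ∃ σ ∈ K, IsMaxOn (fun τ => H (r c • τ)) K σ := fun c =>
    (ModularGroup.isCompact_truncatedFundamentalDomain y).exists_isMaxOn ⟨σ₁, hσ₁K⟩
      (hcont.comp (show Continuous fun τ : ℍ => r c • τ by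
        simp only [ModularGroup.sl_moeb]; fun_prop)).continuousOn
  choose σm hσm hσmax using hmax
  obtain ⟨c₀, -, hc₀⟩ := Finset.exists_max_image Finset.univ (fun c => H (r c • σm c))
    ⟨c₁, Finset.mem_univ _⟩
  set τ₀ := r c₀ • σm c₀
  have h1 : H τ₁ ≤ H τ₀ :=
    e₁ ▸ (hσmax c₁ hσ₁K).trans (hc₀ c₁ (Finset.mem_univ _))
  have h2 : ∀ τ, H τ ≤ H τ₀ := by
    intro τ
    obtain ⟨c, σ, hσ, e⟩ := hrep τ
    rw [e]
    by_cases h : σ.im ≤ y
    · exact (hσmax c ⟨hσ, h⟩).trans (hc₀ c (Finset.mem_univ _))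
    · exact ((hy _ (not_le.mp h).le σ rfl c).le).trans h1
  simp only [hH, norm_petersson_self] at h1 h2 hB
  have hnn : ∀ τ : ℍ, 0 ≤ ‖f τ‖ * τ.im := fun τ => by
    have := τ.im_pos; positivity
  refine ⟨τ₀, lt_of_le_of_ne (hnn τ₀) fun e => ?_, fun τ => ?_⟩
  · rw [← e] at h1
    exact absurd (hB.trans_le h1) (by simp)
  · exact (pow_le_pow_iff_left₀ (hnn τ) (hnn τ₀) two_ne_zero).mp (h2 τ)

open ModularForm in
/-- The Hecke eigenvalue at a prime not dividing the level is smaller than `q + 1`. -/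
theorem norm_qCoeff_lt {g : CuspForm (Gamma0 N) 2} (hg : g.IsNormalizedEigenform) {q : ℕ}
    (hq : q.Prime) (hqN : ¬ q ∣ N) : ‖qCoeff g q‖ < (q : ℝ) + 1 := by
  obtain ⟨τ₀, hpos, hmax⟩ := exists_max_im_mul_norm hg.ne_zero
  set B := ‖g τ₀‖ * τ₀.im with hB
  have hq0 : q ≠ 0 := hq.ne_zero
  have hqR : (0 : ℝ) < q := by exact_mod_cast hq.pos
  have hT : ∀ τ, qCoeff g q * g τ =
      (q : ℂ)⁻¹ * ∑ j ∈ Finset.range q, g (heckeMatrix q j • τ) +
        (q : ℂ) * g (heckeDiagMatrix q • τ) := by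
    intro τ
    have h := congrArg (fun F : CuspForm (Gamma0 N) 2 => F τ)
      (FLTAgent.CuspForms.heckeGen_apply_eigen hg q hq)
    have e : ⇑((FLTAgent.CuspForms.heckeGen N q hq : Module.End ℂ (CuspForm (Gamma0 N) 2)) g) =
        heckeT 2 q ⇑g := by simp [FLTAgent.CuspForms.heckeGen, hqN]
    simp only [FunLike.coe_smul, Pi.smul_apply, smul_eq_mul, e] at h
    rw [← h, heckeT_eq_heckeU_add, Pi.add_apply, heckeU_apply 2 hq0,
      slash_heckeDiagMatrix_apply 2 hq0]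
    norm_num
  have him : ∀ τ : ℍ, (∀ j, (heckeMatrix q j • τ).im = τ.im / q) ∧
      (heckeDiagMatrix q • τ).im = q * τ.im := by
    intro τ
    refine ⟨fun j => ?_, ?_⟩
    · rw [← UpperHalfPlane.coe_im, coe_heckeMatrix_smul hq0, Complex.div_natCast_im,
        Complex.add_im, UpperHalfPlane.coe_im, Complex.natCast_im, add_zero]
    · rw [← UpperHalfPlane.coe_im, coe_heckeDiagMatrix_smul hq0]
      simp
  by_contra hc
  rw [not_lt] at hc
  have step : ∀ τ : ℍ, ‖g τ‖ * τ.im = B →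
      ‖g (heckeDiagMatrix q • τ)‖ * (heckeDiagMatrix q • τ).im = B := by
    intro τ hτ
    refine le_antisymm (hmax _) ?_
    have hsum : (q : ℝ)⁻¹ * ‖∑ j ∈ Finset.range q, g (heckeMatrix q j • τ)‖ * τ.im ≤ q * B := by
      refine (mul_le_mul_of_nonneg_right (mul_le_mul_of_nonneg_left (norm_sum_le _ _)
        (by positivity)) τ.im_pos.le).trans ?_
      rw [Finset.mul_sum, Finset.sum_mul]
      refine (Finset.sum_le_sum (g := fun _ => B) fun j _ => ?_).trans (by simp)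
      have := hmax (heckeMatrix q j • τ)
      rw [(him τ).1 j] at this
      calc (q : ℝ)⁻¹ * ‖g (heckeMatrix q j • τ)‖ * τ.im
          = ‖g (heckeMatrix q j • τ)‖ * (τ.im / q) := by ring
        _ ≤ B := this
    have h1 : ((q : ℝ) + 1) * B ≤ ‖qCoeff g q * g τ‖ * τ.im := by
      rw [norm_mul, mul_assoc, hτ]
      exact mul_le_mul_of_nonneg_right hc hpos.le
    rw [hT] at h1
    have h2 := h1.trans (mul_le_mul_of_nonneg_right (norm_add_le _ _) τ.im_pos.le)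
    rw [add_mul, norm_mul, norm_inv, norm_mul, Complex.norm_natCast] at h2
    rw [(him τ).2]
    linarith
  have hiter : ∀ k : ℕ, ∃ τ : ℍ, ‖g τ‖ * τ.im = B ∧ τ.im = (q : ℝ) ^ k * τ₀.im := by
    intro k
    induction k with
    | zero => exact ⟨τ₀, rfl, by simp⟩
    | succ k ih =>
      obtain ⟨τ, h1, h2⟩ := ih
      exact ⟨_, step τ h1, by rw [(him τ).2, h2, pow_succ]; ring⟩
  have hsmall := (petersson_tendsto_zero g 1).eventually (gt_mem_nhds (pow_pos hpos 2))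
  rw [atImInfty, eventually_comap, eventually_atTop] at hsmall
  obtain ⟨y, hy⟩ := hsmall
  obtain ⟨k, hk⟩ := pow_unbounded_of_one_lt (y / τ₀.im)
    (show (1 : ℝ) < q by exact_mod_cast hq.one_lt)
  obtain ⟨τ, h1, h2⟩ := hiter k
  rw [div_lt_iff₀ τ₀.im_pos] at hk
  have := hy _ (h2 ▸ hk.le) τ rfl
  rw [one_smul, norm_petersson_self, h1] at this
  exact lt_irrefl _ this

end FLTAgent.LevelMatch
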