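import Fermat.Agent.FrobTrace.Global
import Fermat.Agent.LocalEC.Decomposition

/-!
A semistable Weierstrass equation over `ℤ` at a bad prime: the node model over `ℚ̄`.
-/

set_option autoImplicit false

noncomputable section

open scoped Classical
open WeierstrassCurve WeierstrassCurve.Affine IsLocalRing

namespace FLTAgent.LevelMatch

local notation "QQb" => AlgebraicClosure ℚ
local notation "GG" => (AlgebraicClosure ℚ ≃ₐ[ℚ] AlgebraicClosure ℚ)

open FLTAgent.LocalEC FLTAgent.FrobTrace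

variable {A : ValuationSubring (AlgebraicClosure ℚ)}

/-- The decomposition group preserves the valuation, not only its ring of integers. -/
theorem val_map_decomposition {σ : GG} (hσ : σ ∈ A.decompositionSubgroup ℚ) (z : QQb) :
    A.valuation (σ z) = A.valuation z := by
  have hle : ∀ x y : QQb, A.valuation x ≤ A.valuation y →
      A.valuation (σ x) ≤ A.valuation (σ y) := by
    intro x y h
    rcases eq_or_ne y 0 with rfl | hy
    · rw [map_zero, le_zero_iff, map_eq_zero] at h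
      rw [h]
    have hy' : σ y ≠ 0 := (map_ne_zero σ).mpr hy
    have hpos : ∀ w : QQb, w ≠ 0 → (0 : A.ValueGroup) < A.valuation w := fun w hw =>
      A.valuation.pos_iff.mpr hw
    have h1 : x / y ∈ A := mem_of_val_le_one (by
      rw [map_div₀]; exact div_le_one_of_le₀ h zero_le)
    have h2 := val_le_one ((mem_iff_of_mem_decomposition hσ _).mpr h1)
    rw [map_div₀ σ, map_div₀, div_le_one₀ (hpos _ hy')] at h2
    exact h2
  have hlt : ∀ x y : QQb, A.valuation x < A.valuation y →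
      A.valuation (σ x) < A.valuation (σ y) := by
    intro x y h
    rcases eq_or_ne x 0 with rfl | hx
    · have hy : y ≠ 0 := A.valuation.pos_iff.mp (by rwa [map_zero] at h)
      rw [map_zero, map_zero]
      exact A.valuation.pos_iff.mpr ((map_ne_zero σ).mpr hy)
    by_contra hc
    rw [not_lt] at hc
    have h1 : σ y / σ x ∈ A := mem_of_val_le_one (by
      rw [map_div₀]; exact div_le_one_of_le₀ hc zero_le)
    rw [← map_div₀] at h1
    have h2 := val_le_one ((mem_iff_of_mem_decomposition hσ _).mp h1)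
    rw [map_div₀, div_le_one₀ (A.valuation.pos_iff.mpr hx)] at h2
    exact not_le.mpr h h2
  obtain ⟨m, hm, hfix⟩ : ∃ m : ℕ, 0 < m ∧ (⇑σ)^[m] z = z := by
    have hfin : (Set.range fun n : ℕ => (⇑σ)^[n] z).Finite := by
      refine ((minpoly ℚ z).rootSet_finite QQb).subset ?_
      rintro _ ⟨n, rfl⟩
      refine Polynomial.mem_rootSet.mpr ⟨minpoly.ne_zero
        ((AlgebraicClosure.isAlgebraic ℚ).isAlgebraic z).isIntegral, ?_⟩
      induction n with
      | zero => exact minpoly.aeval ℚ z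
      | succ n ih =>
        show Polynomial.aeval ((⇑σ)^[n + 1] z) _ = 0
        rw [Function.iterate_succ_apply', Polynomial.aeval_algEquiv, AlgHom.comp_apply]
        simp only [] at ih
        rw [ih, map_zero]
    have hinj : ¬ Function.Injective (fun n : ℕ => (⇑σ)^[n] z) := fun h =>
      Set.infinite_range_of_injective h hfin
    rw [Function.not_injective_iff] at hinj
    obtain ⟨i, j, hij, hne⟩ := hinj
    wlog h : i < j generalizing i j
    · exact this j i hij.symm hne.symm (by omega)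
    refine ⟨j - i, by omega, ?_⟩
    have e : (⇑σ)^[i] ((⇑σ)^[j - i] z) = (⇑σ)^[i] z := by
      rw [← Function.iterate_add_apply, show i + (j - i) = j by omega]; exact hij.symm
    exact (σ.injective.iterate i) e
  rcases lt_trichotomy (A.valuation (σ z)) (A.valuation z) with h | h | h
  · exfalso
    have key : ∀ n : ℕ, A.valuation ((⇑σ)^[n + 1] z) < A.valuation z := by
      intro n
      induction n with
      | zero => exact h
      | succ n ih =>
        rw [Function.iterate_succ_apply']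
        exact (hlt _ _ ih).trans h
    have := key (m - 1)
    rw [show m - 1 + 1 = m by omega, hfix] at this
    exact lt_irrefl _ this
  · exact h
  · exfalso
    have key : ∀ n : ℕ, A.valuation z < A.valuation ((⇑σ)^[n + 1] z) := by
      intro n
      induction n with
      | zero => exact h
      | succ n ih =>
        rw [Function.iterate_succ_apply']
        exact h.trans (hlt _ _ ih)
    have := key (m - 1)
    rw [show m - 1 + 1 = m by omega, hfix] at this
    exact lt_irrefl _ this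

/-- The abscissa of the singular point of a nodal reduction. -/
theorem exists_node_abscissa (W : WeierstrassCurve ℤ) {q : ℕ} (hq : q.Prime)
    (hΔ : (q : ℤ) ∣ W.Δ) (hc : ¬(q : ℤ) ∣ W.c₄) :
    ∃ x : ℤ, (q : ℤ) ∣ 4 * x ^ 3 + W.b₂ * x ^ 2 + 2 * W.b₄ * x + W.b₆ ∧
      (q : ℤ) ∣ 12 * x ^ 2 + 2 * W.b₂ * x + 2 * W.b₄ ∧ ¬(q : ℤ) ∣ 12 * x + W.b₂ := by
  have hqi : Prime (q : ℤ) := Nat.prime_iff_prime_int.mp hq
  obtain ⟨u, v, huv⟩ := (hqi.coprime_iff_not_dvd.mpr hc)
  refine ⟨v * (18 * W.b₆ - W.b₂ * W.b₄), ?_, ?_, ?_⟩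
  · obtain ⟨k, hk⟩ := hΔ
    have e : (W.c₄ : ℤ) ^ 3 * (4 * (v * (18 * W.b₆ - W.b₂ * W.b₄)) ^ 3 +
          W.b₂ * (v * (18 * W.b₆ - W.b₂ * W.b₄)) ^ 2 +
          2 * W.b₄ * (v * (18 * W.b₆ - W.b₂ * W.b₄)) + W.b₆) -
        4 * W.c₆ * W.Δ =
        (v * W.c₄ - 1) * ((4 * (18 * W.b₆ - W.b₂ * W.b₄) ^ 3) *
            ((v * W.c₄) ^ 2 + v * W.c₄ + 1) +
          W.b₂ * W.c₄ * (18 * W.b₆ - W.b₂ * W.b₄) ^ 2 * (v * W.c₄ + 1) +
          2 * W.b₄ * W.c₄ ^ 2 * (18 * W.b₆ - W.b₂ * W.b₄)) := by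
      simp only [WeierstrassCurve.c₄, WeierstrassCurve.c₆, WeierstrassCurve.Δ,
        WeierstrassCurve.b₂, WeierstrassCurve.b₄, WeierstrassCurve.b₆, WeierstrassCurve.b₈]
      ring
    refine (hqi.dvd_or_dvd (a := W.c₄ ^ 3) ?_).resolve_left fun h => hc (hqi.dvd_of_dvd_pow h)
    rw [sub_eq_iff_eq_add.mp e]
    refine dvd_add (dvd_mul_of_dvd_left ⟨-u, ?_⟩ _) (dvd_mul_of_dvd_right ⟨k, hk⟩ _)
    linear_combination huv
  · obtain ⟨k, hk⟩ := hΔ
    have e : (W.c₄ : ℤ) ^ 2 * (12 * (v * (18 * W.b₆ - W.b₂ * W.b₄)) ^ 2 +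
          2 * W.b₂ * (v * (18 * W.b₆ - W.b₂ * W.b₄)) + 2 * W.b₄) -
        -144 * W.Δ =
        (v * W.c₄ - 1) * (12 * (18 * W.b₆ - W.b₂ * W.b₄) ^ 2 * (v * W.c₄ + 1) +
          2 * W.b₂ * W.c₄ * (18 * W.b₆ - W.b₂ * W.b₄)) := by
      simp only [WeierstrassCurve.c₄, WeierstrassCurve.Δ,
        WeierstrassCurve.b₂, WeierstrassCurve.b₄, WeierstrassCurve.b₆, WeierstrassCurve.b₈]
      ring
    refine (hqi.dvd_or_dvd (a := W.c₄ ^ 2) ?_).resolve_left fun h => hc (hqi.dvd_of_dvd_pow h)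
    rw [sub_eq_iff_eq_add.mp e]
    refine dvd_add (dvd_mul_of_dvd_left ⟨-u, ?_⟩ _) (dvd_mul_of_dvd_right ⟨k, hk⟩ _)
    linear_combination huv
  · intro h
    have hc6 : (q : ℤ) ∣ W.c₆ := by
      have e : W.c₆ = -(W.c₄ * (12 * (v * (18 * W.b₆ - W.b₂ * W.b₄)) + W.b₂)) +
          12 * (18 * W.b₆ - W.b₂ * W.b₄) * (v * W.c₄ - 1) := by
        simp only [WeierstrassCurve.c₄, WeierstrassCurve.c₆]
        ring
      rw [e]
      exact dvd_add (dvd_neg.mpr (dvd_mul_of_dvd_right h _))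
        (dvd_mul_of_dvd_right ⟨-u, by linear_combination huv⟩ _)
    apply hc
    refine hqi.dvd_of_dvd_pow (n := 3) ?_
    have e := W.c_relation
    rw [show W.c₄ ^ 3 = W.c₆ ^ 2 + 1728 * W.Δ by linear_combination -e]
    exact dvd_add (dvd_pow hc6 two_ne_zero) (dvd_mul_of_dvd_right hΔ _)

/-- A cubic with small last two coefficients and a unit quadratic coefficient has a small root. -/
theorem exists_small_root {K : Type*} [Field K] [IsAlgClosed K] [CharZero K]
    (B : ValuationSubring K) {e₀ e₁ e₂ : K} (h₀ : B.valuation e₀ < 1)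
    (h₂ : B.valuation e₂ = 1) :
    ∃ z : K, B.valuation z < 1 ∧ 4 * z ^ 3 + e₂ * z ^ 2 + e₁ * z + e₀ = 0 := by
  obtain ⟨z₁, hz₁⟩ : ∃ z₁ : K, 4 * z₁ ^ 3 + e₂ * z₁ ^ 2 + e₁ * z₁ + e₀ = 0 := by
    obtain ⟨z, hz⟩ := IsAlgClosed.exists_root
      (Polynomial.C 4 * Polynomial.X ^ 3 + Polynomial.C e₂ * Polynomial.X ^ 2 +
        Polynomial.C e₁ * Polynomial.X + Polynomial.C e₀)
      (by rw [Polynomial.degree_cubic (by norm_num : (4 : K) ≠ 0)]; decide)
    exact ⟨z, by simpa using hz⟩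
  rcases lt_or_ge (B.valuation z₁) 1 with h | hge
  · exact ⟨z₁, h, hz₁⟩
  set m := e₂ + 4 * z₁ with hm
  set c := e₁ + e₂ * z₁ + 4 * z₁ ^ 2 with hc
  obtain ⟨d, hd⟩ := IsAlgClosed.exists_eq_mul_self (m ^ 2 - 16 * c)
  set z₂ := (-m + d) / 8 with hz₂
  set z₃ := (-m - d) / 8 with hz₃
  have hsum : 4 * (z₁ + z₂ + z₃) = -e₂ := by rw [hz₂, hz₃, hm]; ring
  have hprod : 4 * z₂ * z₃ = c := by
    rw [hz₂, hz₃]; field_simp; linear_combination 4 * hd
  have hroot : ∀ z, (z - z₁) * (4 * z ^ 2 + m * z + c) =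
      4 * z ^ 3 + e₂ * z ^ 2 + e₁ * z + e₀ := fun z => by
    rw [hm, hc]; linear_combination -hz₁
  have hq : ∀ z, 4 * z ^ 2 + m * z + c = 4 * (z - z₂) * (z - z₃) := fun z => by
    rw [← hprod, hm]; linear_combination z * hsum
  by_contra hcon
  push Not at hcon
  have h2 : 1 ≤ B.valuation z₂ := by
    by_contra h; rw [not_le] at h
    exact hcon z₂ h (by rw [← hroot, hq, sub_self]; ring)
  have h3 : 1 ≤ B.valuation z₃ := by
    by_contra h; rw [not_le] at h
    exact hcon z₃ h (by rw [← hroot, hq, sub_self]; ring)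
  have hp : B.valuation (4 * z₁ * z₂ * z₃) < 1 := by
    rw [show 4 * z₁ * z₂ * z₃ = -e₀ by linear_combination z₁ * hprod + z₁ * hc + hz₁,
      Valuation.map_neg]
    exact h₀
  have hs : (1 : B.ValueGroup) ≤
      max (B.valuation (4 * z₁)) (max (B.valuation (4 * z₂)) (B.valuation (4 * z₃))) := by
    rw [← h₂, ← Valuation.map_neg, ← hsum, show 4 * (z₁ + z₂ + z₃) = 4 * z₁ + (4 * z₂ + 4 * z₃) by ring]
    exact (B.valuation.map_add _ _).trans (max_le_max le_rfl (B.valuation.map_add _ _))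
  rw [map_mul, map_mul, map_mul] at hp
  simp only [le_max_iff, map_mul] at hs
  refine absurd hp (not_lt.mpr ?_)
  rcases hs with h | h | h
  · exact (one_le_mul (one_le_mul h h2) h3)
  · calc (1 : B.ValueGroup) ≤ (B.valuation 4 * B.valuation z₂) * (B.valuation z₁ * B.valuation z₃) :=
        one_le_mul h (one_le_mul hge h3)
      _ = _ := by ac_rfl
  · calc (1 : B.ValueGroup) ≤ (B.valuation 4 * B.valuation z₃) * (B.valuation z₁ * B.valuation z₂) :=
        one_le_mul h (one_le_mul hge h2)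
      _ = _ := by ac_rfl

/-- A node model of a semistable curve at a place over a bad prime. -/
structure SemiNode (W : WeierstrassCurve ℤ) (A : ValuationSubring (AlgebraicClosure ℚ)) where
  x₀ : ℤ
  model : WeierstrassCurve.Affine (AlgebraicClosure ℚ)
  C : PointChange (barCurve W) model
  u_eq : C.u = 1
  s_eq : C.s = 0
  r_near : A.valuation (C.r - (x₀ : QQb)) < 1
  t_mem : C.t ∈ A
  node : NodeModel A model

namespace SemiNode

variable {W : WeierstrassCurve ℤ} (S : SemiNode W A)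

theorem r_mem : S.C.r ∈ A := by
  have := add_mem (mem_of_val_le_one S.r_near.le) (intCast_mem A S.x₀)
  rwa [sub_add_cancel] at this

theorem a₁_eq : S.model.a₁ = (barCurve W).a₁ := by
  have := S.C.h₁
  rwa [S.u_eq, S.s_eq, one_mul, mul_zero, add_zero] at this

theorem X_eq (x : QQb) : S.C.X x = x + S.C.r := by
  rw [PointChange.X, S.u_eq, one_pow, one_mul]

theorem Y_eq (x y : QQb) : S.C.Y x y = y + S.C.t := by
  rw [PointChange.Y, S.u_eq, S.s_eq, one_pow, one_mul, zero_mul, zero_mul, add_zero]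

end SemiNode

/-- A semistable curve has a node model at every place over a bad prime. -/
theorem exists_semiNode {W : WeierstrassCurve ℤ} (hW : W.Δ ≠ 0) {q : ℕ} (hq : q.Prime)
    (hΔ : (q : ℤ) ∣ W.Δ) (hc : ¬(q : ℤ) ∣ W.c₄) (hA : A.LiesOverPrime q) :
    Nonempty (SemiNode W A) := by
  obtain ⟨x₀, h₀, h₁, h₂⟩ := exists_node_abscissa W hq hΔ hc
  have hI := intCoeff_barCurve W A
  have v₀ := val_intCast_lt_one (L := QQb) hA h₀
  have v₁ := val_intCast_lt_one (L := QQb) hA h₁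
  have v₂ := val_intCast_eq_one (L := QQb) hA hq h₂
  have hb : (barCurve W).b₂ = (W.b₂ : QQb) ∧ (barCurve W).b₄ = (W.b₄ : QQb) ∧
      (barCurve W).b₆ = (W.b₆ : QQb) ∧ (barCurve W).c₄ = (W.c₄ : QQb) := by
    refine ⟨?_, ?_, ?_, ?_⟩ <;> simp [WeierstrassCurve.map, b₂, b₄, b₆, c₄]
  push_cast at v₀ v₁ v₂
  rw [← hb.1] at v₀ v₁ v₂
  rw [← hb.2.1] at v₀ v₁
  rw [← hb.2.2.1] at v₀
  set V := barCurve W
  obtain ⟨z, hz, hroot⟩ := exists_small_root A (e₁ := 12 * (x₀ : QQb) ^ 2 + 2 * V.b₂ * x₀ + 2 * V.b₄)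
    v₀ v₂
  have h2 : (2 : QQb) ≠ 0 := two_ne_zero
  set r := (x₀ : QQb) + z with hr
  set t := -(V.a₁ * r + V.a₃) / 2 with ht
  have hrA : r ∈ A := add_mem (intCast_mem A x₀) (mem_of_val_le_one hz.le)
  have heq : V.Equation r t := by
    rw [equation_iff, ht]
    have e : V.b₆ + 2 * V.b₄ * r + V.b₂ * r ^ 2 + 4 * r ^ 3 = 0 := by
      rw [hr]; linear_combination hroot
    simp only [b₂, b₄, b₆] at e
    field_simp
    linear_combination -e
  let W' : WeierstrassCurve.Affine QQb :=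
    { a₁ := V.a₁, a₂ := V.a₂ + 3 * r, a₃ := 0,
      a₄ := V.a₄ + 2 * r * V.a₂ - t * V.a₁ + 3 * r ^ 2, a₆ := 0 }
  have h3 : (0 : QQb) = V.a₃ + r * V.a₁ + 2 * t := by rw [ht]; field_simp; ring
  let C : PointChange V W' :=
    { u := 1, r := r, s := 0, t := t, hu := one_ne_zero
      h₁ := by ring
      h₂ := by ring
      h₃ := by rw [one_pow, one_mul]; exact h3
      h₄ := by ring
      h₆ := by
        rw [equation_iff] at heq
        show 1 ^ 6 * 0 = _
        linear_combination heq }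
  have hwb2 : W'.b₂ = 12 * (x₀ : QQb) + V.b₂ + 12 * z := by
    simp only [b₂, W', hr]; ring
  have hvb2 : A.valuation W'.b₂ = 1 := by
    rw [hwb2, A.valuation.map_add_eq_of_lt_left ?_, v₂]
    rw [v₂, map_mul]
    exact (mul_le_of_le_one_left' (val_le_one (natCast_mem A 12))).trans_lt hz
  have h4 : A.valuation (4 * W'.a₄) < 1 := by
    have e : 4 * W'.a₄ =
        12 * (x₀ : QQb) ^ 2 + 2 * V.b₂ * x₀ + 2 * V.b₄ +
          (2 * (12 * (x₀ : QQb) + V.b₂) + 12 * z) * z := by
      simp only [W', b₂, b₄]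
      rw [ht, hr]
      field_simp
      ring
    rw [e]
    refine A.valuation.map_add_lt v₁ ?_
    rw [map_mul]
    exact (mul_le_of_le_one_left' (val_le_one (add_mem (mul_mem (natCast_mem A 2)
      (mem_of_val_le_one v₂.le)) (mul_mem (natCast_mem A 12) (mem_of_val_le_one hz.le))))).trans_lt hz
  have hW'4 : W'.a₄ ∈ A :=
    add_mem (sub_mem (add_mem hI.mem₄ (mul_mem (mul_mem (natCast_mem A 2) hrA) hI.mem₂))
      (mul_mem (hI.y_mem heq hrA) hI.mem₁)) (mul_mem (natCast_mem A 3) (pow_mem hrA 2))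
  have hdisc : V.Δ = W'.a₄ ^ 2 * (W'.b₂ ^ 2 - 64 * W'.a₄) := by
    have e1 : V.Δ = W'.Δ := by
      have e := (equation_iff r t).mp heq
      simp only [Δ, b₂, b₄, b₆, b₈, W']
      rw [show V.a₆ = t ^ 2 + V.a₁ * r * t + V.a₃ * t - r ^ 3 - V.a₂ * r ^ 2 - V.a₄ * r by
        linear_combination -e, show V.a₃ = -(r * V.a₁) - 2 * t by linear_combination -h3]
      ring
    rw [e1]
    simp only [Δ, b₂, b₄, b₆, b₈, W']
    ring
  have hΔ0 : V.Δ ≠ 0 := by rw [Δ_barCurve]; exact_mod_cast hW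
  have ha4 : A.valuation W'.a₄ < 1 := by
    by_contra hcon
    have ha : A.valuation W'.a₄ = 1 := le_antisymm (val_le_one hW'4) (not_lt.mp hcon)
    have h4' : A.valuation (4 : QQb) < 1 := by rwa [map_mul, ha, mul_one] at h4
    have hlt : A.valuation V.Δ < 1 := by
      rw [Δ_barCurve]; exact val_intCast_lt_one hA hΔ
    rw [hdisc, map_mul, map_pow, ha, one_pow, one_mul, A.valuation.map_sub_eq_of_lt_left ?_,
      map_pow, hvb2, one_pow] at hlt
    · exact lt_irrefl _ hlt
    · rw [map_pow, hvb2, one_pow, show (64 : QQb) = 4 * 16 by norm_num, mul_assoc, map_mul]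
      exact (mul_le_of_le_one_right' (val_le_one (mul_mem (natCast_mem A 16) hW'4))).trans_lt h4'
  refine ⟨{ x₀ := x₀, model := W', C := C, u_eq := rfl, s_eq := rfl
            r_near := by rw [show C.r - (x₀ : QQb) = z by simp [C, hr]]; exact hz
            t_mem := hI.y_mem heq hrA
            node :=
            { mem₁ := hI.mem₁
              mem₂ := add_mem hI.mem₂ (mul_mem (natCast_mem A 3) hrA)
              mem₃ := zero_mem A
              mem₄ := hW'4
              mem₆ := zero_mem A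
              a₃_eq := rfl
              a₆_eq := rfl
              b₂_unit := hvb2
              a₄_lt := ha4
              a₄_ne := fun h => hΔ0 (by rw [hdisc, h]; ring) } }⟩

end FLTAgent.LevelMatch
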