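import Fermat.Agent.LevelMatch.Residual
import Fermat.Agent.LevelMatch.Local
import Fermat.Agent.LevelMatch.Bound
import Fermat.Agent.EigenReps.Residual
import Fermat.Agent.Frobenius.Exists

/-!
An eigenform with the eigensystem of a semistable curve: the coefficients at the primes outside
its level.
-/

set_option autoImplicit false
set_option linter.style.haveILetI false

noncomputable section

open scoped Classical WeierstrassCurve.Affine
open WeierstrassCurve Polynomial CongruenceSubgroup ModularFormClass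

namespace FLTAgent.LevelMatch

local notation "QQb" => AlgebraicClosure ℚ
local notation "GG" => (AlgebraicClosure ℚ ≃ₐ[ℚ] AlgebraicClosure ℚ)
local notation "ZZbar" => integralClosure ℤ ℂ

/-- An algebraic integer in maximal ideals over infinitely many primes is zero. -/
theorem eq_zero_of_frequently_mem (z : ZZbar) (B : ℕ)
    (h : ∀ l : ℕ, l.Prime → B < l →
      ∃ I : Ideal ZZbar, I ≠ ⊤ ∧ (l : ZZbar) ∈ I ∧ z ∈ I) : z = 0 := by
  by_contra hz
  have hint : IsIntegral ℤ z := Algebra.IsIntegral.isIntegral z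
  have hne := Ideal.comap_ne_bot_of_integral_mem (R := ℤ) hz
    (Ideal.mem_span_singleton_self z) hint
  obtain ⟨c, hc, hc0⟩ := Submodule.exists_mem_ne_zero_of_ne_bot hne
  obtain ⟨l, hl, hlp⟩ := Nat.exists_infinite_primes (max B c.natAbs + 1)
  obtain ⟨I, hI, hlI, hzI⟩ := h l hlp (by omega)
  have hcI : ((c : ℤ) : ZZbar) ∈ I := by
    have h1 : algebraMap ℤ ZZbar c ∈ Ideal.span {z} := Ideal.mem_comap.mp hc
    rw [eq_intCast] at h1
    exact (Ideal.span_singleton_le_iff_mem I).mpr hzI h1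
  have hnd : ¬ (l : ℤ) ∣ c := fun hd => by
    have := Nat.le_of_dvd (Int.natAbs_pos.mpr hc0) (Int.natCast_dvd.mp hd)
    omega
  obtain ⟨u, v, huv⟩ := (Nat.prime_iff_prime_int.mp hlp).coprime_iff_not_dvd.mpr hnd
  refine hI ((Ideal.eq_top_iff_one I).mpr ?_)
  have e := congrArg (Int.cast : ℤ → ZZbar) huv
  push_cast at e
  rw [← e]
  exact add_mem (I.mul_mem_left _ hlI) (I.mul_mem_left _ hcI)

variable {W : WeierstrassCurve ℤ} {M : ℕ} [NeZero M]
  {g : CuspForm (Gamma0 M) 2} {N : ℕ}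

theorem exists_zbar_qCoeff (hg : g.IsNormalizedEigenform) {q : ℕ} (hq : q.Prime) (hqM : ¬ q ∣ M) :
    ∃ a : ZZbar, (a : ℂ) = qCoeff g q :=
  ⟨_, EigenReps.coe_eigenCharInt_T hg (S := ∅) hq hqM (Set.notMem_empty q)⟩

/-- Congruence between the eigenform and the torsion of the curve at a prime outside the level. -/
theorem charpoly_resW_congr (hW : W.Δ ≠ 0) (hN : N ≠ 0) (hg : g.IsNormalizedEigenform)
    (hagree : ∀ ℓ : ℕ, ℓ.Prime → W.IsGoodPrimeFor ℓ → ¬ ℓ ∣ N →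
      qCoeff g ℓ = (W.apOfModel ℓ : ℂ))
    {q : ℕ} (hq : q.Prime) (hqM : ¬ q ∣ M) {a : ZZbar} (ha : (a : ℂ) = qCoeff g q)
    {l : ℕ} [hl : Fact l.Prime] (hlq : l ≠ q)
    (A : ValuationSubring QQb) (hA : A.LiesOverPrime q) (τ : GG) (hτ : A.IsFrobeniusAt τ q) :
    ∃ (I : Ideal ZZbar) (φ : ZMod l →+* ZZbar ⧸ I), I.IsMaximal ∧ (l : ZZbar) ∈ I ∧
      (LinearMap.charpoly ((resW W hW l).ρ τ)).map φ =
        X ^ 2 - C (Ideal.Quotient.mk I a) * X + C (q : ZZbar ⧸ I) := by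
  obtain ⟨I, hI, hlI⟩ := FLTPrelim.exists_maximalIdeal_natCast_prime_mem hl.out
  haveI := hI
  letI : Field (ZZbar ⧸ I) := Ideal.Quotient.field I
  haveI : CharP (ZZbar ⧸ I) l := (CharP.charP_iff_prime_eq_zero hl.out).mpr (by
    rw [← map_natCast (Ideal.Quotient.mk I)]
    exact Ideal.Quotient.eq_zero_iff_mem.mpr hlI)
  set φ : ZMod l →+* ZZbar ⧸ I := ZMod.castHom dvd_rfl _
  obtain ⟨ρ, hρ, -⟩ := EigenReps.exists_residualGaloisRep hg hl.out (Ideal.Quotient.mk I)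
  have hcast : ∀ ℓ : ℕ, ℓ.Prime → ℓ ≠ l → (ℓ : ZZbar ⧸ I) ≠ 0 := fun ℓ hℓ hne h => hne
    ((Nat.prime_dvd_prime_iff_eq hl.out hℓ).mp ((CharP.cast_eq_zero_iff _ l ℓ).mp h)).symm
  have key := charpoly_eq_resW hW φ ρ (M.primeFactors ∪ N.primeFactors)
    (fun ℓ hℓ hℓS hgood hne V hV σ hσ => by
      rw [Finset.mem_union, not_or] at hℓS
      have hℓM : ¬ ℓ ∣ M := fun h => hℓS.1 (Nat.mem_primeFactors.mpr ⟨hℓ, h, NeZero.ne M⟩)
      have hℓN : ¬ ℓ ∣ N := fun h => hℓS.2 (Nat.mem_primeFactors.mpr ⟨hℓ, h, hN⟩)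
      obtain ⟨b, hb, hcp⟩ := hρ ℓ hℓ hℓM (hcast ℓ hℓ hne) V hV σ hσ
      have : b = ((W.apOfModel ℓ : ℤ) : ZZbar) :=
        Subtype.ext (by rw [hb, hagree ℓ hℓ hgood hℓN]; simp)
      rw [hcp, this, map_intCast]) τ
  obtain ⟨b, hb, hcp⟩ := hρ q hq hqM (hcast q hq (Ne.symm hlq)) A hA τ hτ
  obtain rfl : b = a := Subtype.ext (hb.trans ha.symm)
  exact ⟨I, φ, hI, hlI, key.symm.trans hcp⟩

/-- At a good prime outside the level the coefficient is the trace of Frobenius. -/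
theorem qCoeff_eq_of_good (hW : W.Δ ≠ 0) (hN : N ≠ 0) (hg : g.IsNormalizedEigenform)
    (hagree : ∀ ℓ : ℕ, ℓ.Prime → W.IsGoodPrimeFor ℓ → ¬ ℓ ∣ N →
      qCoeff g ℓ = (W.apOfModel ℓ : ℂ))
    {q : ℕ} (hq : q.Prime) (hgood : W.IsGoodPrimeFor q) (hqM : ¬ q ∣ M) :
    qCoeff g q = (W.apOfModel q : ℂ) := by
  obtain ⟨a, ha⟩ := exists_zbar_qCoeff hg hq hqM
  obtain ⟨A, hA⟩ := Frobenius.exists_liesOverPrime q hq
  obtain ⟨τ, hτ⟩ := Frobenius.exists_isFrobeniusAt A q hq hA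
  have key : a - ((W.apOfModel q : ℤ) : ZZbar) = 0 := by
    refine eq_zero_of_frequently_mem _ q fun l hl hlq => ?_
    haveI : Fact l.Prime := ⟨hl⟩
    haveI : Fact q.Prime := ⟨hq⟩
    obtain ⟨I, φ, hI, hlI, e⟩ :=
      charpoly_resW_congr hW hN hg hagree hq hqM ha (l := l) (by omega) A hA τ hτ
    refine ⟨I, hI.ne_top, hlI, ?_⟩
    rw [charpoly_resW_frobenius hW hgood (by omega) hA hτ] at e
    have e1 := congrArg (fun P => Polynomial.coeff P 1) e
    simp [Polynomial.coeff_X_pow] at e1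
    rw [← Ideal.Quotient.eq_zero_iff_mem, map_sub, map_intCast, e1, sub_self]
  rw [← ha, sub_eq_zero.mp key]
  simp

/-- Bad primes of a semistable curve divide the level. -/
theorem dvd_level_of_bad (hW : W.Δ ≠ 0) (hN : N ≠ 0) (hg : g.IsNormalizedEigenform)
    (hagree : ∀ ℓ : ℕ, ℓ.Prime → W.IsGoodPrimeFor ℓ → ¬ ℓ ∣ N →
      qCoeff g ℓ = (W.apOfModel ℓ : ℂ))
    {q : ℕ} (hq : q.Prime) (hbad : (q : ℤ) ∣ W.Δ) (hc : ¬ (q : ℤ) ∣ W.c₄) : q ∣ M := by
  by_contra hqM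
  obtain ⟨a, ha⟩ := exists_zbar_qCoeff hg hq hqM
  obtain ⟨A, hA⟩ := Frobenius.exists_liesOverPrime q hq
  obtain ⟨τ, hτ⟩ := Frobenius.exists_isFrobeniusAt A q hq hA
  obtain ⟨S⟩ := exists_semiNode hW hq hbad hc hA
  have key : (a - ((q : ZZbar) + 1)) * (a + ((q : ZZbar) + 1)) = 0 := by
    refine eq_zero_of_frequently_mem _ (q + 2) fun l hl hlq => ?_
    haveI : Fact l.Prime := ⟨hl⟩
    haveI : Fact q.Prime := ⟨hq⟩
    have hval : A.valuation ((l : ℕ) : QQb) = 1 := LocalEC.val_natCast_eq_one hA hq fun h => by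
      have := (Nat.prime_dvd_prime_iff_eq hq hl).mp h
      omega
    obtain ⟨P, hP0, hlP, hP⟩ := S.exists_inE0_torsion hW (p := l) (by omega)
    obtain ⟨I, φ, hI, hlI, e⟩ :=
      charpoly_resW_congr hW hN hg hagree hq hqM ha (l := l) (by omega) A hA τ hτ
    refine ⟨I, hI.ne_top, hlI, ?_⟩
    haveI := hI
    letI : Field (ZZbar ⧸ I) := Ideal.Quotient.field I
    haveI : CharP (ZZbar ⧸ I) l := (CharP.charP_iff_prime_eq_zero hl).mpr (by
      rw [← map_natCast (Ideal.Quotient.mk I)]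
      exact Ideal.Quotient.eq_zero_iff_mem.mpr hlI)
    have hq0 : (q : ZZbar ⧸ I) ≠ 0 := fun h => by
      have := (Nat.prime_dvd_prime_iff_eq hl hq).mp ((CharP.cast_eq_zero_iff _ l q).mp h)
      omega
    rw [← Ideal.Quotient.eq_zero_iff_mem, map_mul, map_add, map_sub, map_add, map_natCast, map_one,
      mul_eq_zero]
    have hroot : ∀ m : ℤ, τ • P = m • P → (m : ZZbar ⧸ I) ^ 2 -
        Ideal.Quotient.mk I a * (m : ZZbar ⧸ I) + (q : ZZbar ⧸ I) = 0 := by
      intro m hm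
      have h1 := (isRoot_charpoly_resW hW hP0 hlP m hm).map (f := φ)
      rw [e, map_intCast] at h1
      simpa using h1
    rcases S.frobenius_inE0_torsion hA hτ hval hlP hP with h1 | h1
    · left
      have h2 := hroot (q : ℤ) (by rw [natCast_zsmul]; exact h1)
      push_cast at h2
      refine mul_left_cancel₀ hq0 ?_
      linear_combination -h2
    · right
      have h2 := hroot (-(q : ℤ)) (by rw [neg_zsmul, natCast_zsmul]; exact h1)
      push_cast at h2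
      refine mul_left_cancel₀ hq0 ?_
      linear_combination h2
  have hb := norm_qCoeff_lt hg hq hqM
  rw [← ha] at hb
  rcases mul_eq_zero.mp key with h | h
  · rw [sub_eq_zero.mp h] at hb
    push_cast at hb
    rw [show ((q : ℂ) + 1) = ((q + 1 : ℕ) : ℂ) by push_cast; ring, Complex.norm_natCast] at hb
    push_cast at hb
    exact lt_irrefl _ hb
  · rw [eq_neg_of_add_eq_zero_left h] at hb
    rw [show ((-((q : ZZbar) + 1) : ZZbar) : ℂ) = -((q + 1 : ℕ) : ℂ) by push_cast; ring,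
      norm_neg, Complex.norm_natCast] at hb
    push_cast at hb
    exact lt_irrefl _ hb

end FLTAgent.LevelMatch
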