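import Fermat.Agent.LevelMatch.Node
import Fermat.Agent.Deformation.Bridge
import Fermat.Agent.Torsion.Residual
import Mathlib.NumberTheory.Padics.RingHoms

/-!
Coordinates on the Tate module of an elliptic curve over `ℚ`.
-/

set_option autoImplicit false
set_option linter.style.haveILetI false

noncomputable section

open scoped Classical WeierstrassCurve.Affine
open WeierstrassCurve WeierstrassCurve.Affine IsLocalRing Matrix

namespace FLTAgent.LevelMatch

local notation "QQb" => AlgebraicClosure ℚ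
local notation "GG" => (AlgebraicClosure ℚ ≃ₐ[ℚ] AlgebraicClosure ℚ)

open FLTAgent.FrobTrace

section Abstract

variable (E : Type*) [AddCommGroup E] (p : ℕ) [hp : Fact p.Prime]

/-- Compatible bases of the `p`-power torsion. -/
structure TateBasis where
  P : ℕ → E
  Q : ℕ → E
  stepP : ∀ n, p • P (n + 1) = P n
  stepQ : ∀ n, p • Q (n + 1) = Q n
  killP : ∀ n, p ^ n • P n = 0
  killQ : ∀ n, p ^ n • Q n = 0
  indep : ∀ n (a b : ℤ), a • P n + b • Q n = 0 → ((p ^ n : ℕ) : ℤ) ∣ a ∧ ((p ^ n : ℕ) : ℤ) ∣ b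
  span : ∀ n (T : E), p ^ n • T = 0 → ∃ a b : ℤ, T = a • P n + b • Q n

variable {E p}

/-- Torsion groups of order `p ^ (2 n)` have compatible bases. -/
theorem exists_tateBasis (hcard : ∀ n : ℕ,
    Nat.card {T : E // p ^ n • T = 0} = (p ^ n) ^ 2)
    (hbase : ∃ x y : E, p • x = 0 ∧ p • y = 0 ∧
      ∀ a b : ℤ, a • x + b • y = 0 → (p : ℤ) ∣ a ∧ (p : ℤ) ∣ b) :
    Nonempty (TateBasis E p) := by
  have hp0 : p ≠ 0 := hp.out.ne_zero
  have hfin : ∀ n, Finite {T : E // p ^ n • T = 0} := fun n =>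
    Nat.finite_of_card_ne_zero (by rw [hcard]; positivity)
  -- multiplication by `p` is onto
  have hsurj : ∀ n (T : E), p ^ n • T = 0 → ∃ U, p • U = T := by
    intro n T hT
    let K : ℕ → AddSubgroup E := fun m => (DistribSMul.toAddMonoidHom E (p ^ m)).ker
    have hK : ∀ m, Nat.card (K m) = (p ^ m) ^ 2 := fun m => hcard m
    haveI : ∀ m, Finite (K m) := fun m => Nat.finite_of_card_ne_zero (by rw [hK]; positivity)
    let f : K (n + 1) →+ K n := AddMonoidHom.mk'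
      (fun U => ⟨p • (U : E), by
        show p ^ n • (p • (U : E)) = 0
        rw [← mul_nsmul', ← pow_succ]; exact U.2⟩)
      (fun U V => Subtype.ext (nsmul_add _ _ _))
    have hker : Nat.card f.ker = (p ^ 1) ^ 2 := by
      rw [← hK 1]
      refine Nat.card_congr ⟨fun U => ⟨((U : K (n + 1)) : E), ?_⟩,
        fun U => ⟨⟨(U : E), ?_⟩, ?_⟩, fun U => rfl, fun U => rfl⟩
      · show p ^ 1 • ((U : K (n + 1)) : E) = 0
        rw [pow_one]; exact congrArg Subtype.val U.2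
      · show p ^ (n + 1) • (U : E) = 0
        have h : p ^ 1 • (U : E) = 0 := U.2
        rw [pow_succ, mul_nsmul', ← pow_one p, h, nsmul_zero]
      · exact Subtype.ext (by
          show p • (U : E) = 0
          have h : p ^ 1 • (U : E) = 0 := U.2
          rwa [pow_one] at h)
    have hrange : Nat.card f.range = Nat.card (K n) := by
      have h := f.ker.card_eq_card_quotient_mul_card_addSubgroup
      rw [Nat.card_congr (QuotientAddGroup.quotientKerEquivRange f).toEquiv, hker, hK,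
        pow_succ p n, mul_pow, pow_one] at h
      rw [hK]
      exact (Nat.eq_of_mul_eq_mul_right (by positivity) h).symm
    obtain ⟨U, hU⟩ : (⟨T, hT⟩ : K n) ∈ f.range :=
      (AddSubgroup.eq_top_of_card_eq f.range hrange).symm ▸ AddSubgroup.mem_top _
    exact ⟨U, congrArg Subtype.val hU⟩
  let Good : ℕ → E × E → Prop := fun n s => p ^ n • s.1 = 0 ∧ p ^ n • s.2 = 0 ∧
    ∀ a b : ℤ, a • s.1 + b • s.2 = 0 → ((p ^ n : ℕ) : ℤ) ∣ a ∧ ((p ^ n : ℕ) : ℤ) ∣ b
  have hstep : ∀ n (s : {s // Good (n + 1) s}),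
      ∃ s' : {s // Good (n + 2) s}, p • s'.1.1 = s.1.1 ∧ p • s'.1.2 = s.1.2 := by
    rintro n ⟨⟨x, y⟩, hx, hy, hind⟩
    obtain ⟨x', hx'⟩ := hsurj _ x hx
    obtain ⟨y', hy'⟩ := hsurj _ y hy
    refine ⟨⟨⟨x', y'⟩, ?_, ?_, fun a b hab => ?_⟩, hx', hy'⟩
    · show p ^ (n + 2) • x' = 0
      rw [show n + 2 = (n + 1) + 1 from rfl, pow_succ, mul_nsmul', hx']; exact hx
    · show p ^ (n + 2) • y' = 0
      rw [show n + 2 = (n + 1) + 1 from rfl, pow_succ, mul_nsmul', hy']; exact hy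
    · have h1 := congrArg (p • ·) hab
      simp only [nsmul_add, nsmul_zero, smul_comm p a, smul_comm p b, hx', hy'] at h1
      obtain ⟨ha, hb⟩ := hind a b h1
      obtain ⟨a', rfl⟩ := (Int.natCast_dvd_natCast.mpr (dvd_pow_self p n.succ_ne_zero)).trans ha
      obtain ⟨b', rfl⟩ := (Int.natCast_dvd_natCast.mpr (dvd_pow_self p n.succ_ne_zero)).trans hb
      have h2 : a' • x + b' • y = 0 := by
        rw [← hx', ← hy', ← natCast_zsmul x', ← natCast_zsmul y', smul_smul, smul_smul,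
          mul_comm a', mul_comm b']
        exact hab
      obtain ⟨ha', hb'⟩ := hind a' b' h2
      have key : ∀ c : ℤ, ((p ^ (n + 1) : ℕ) : ℤ) ∣ c → ((p ^ (n + 2) : ℕ) : ℤ) ∣ (p : ℤ) * c := by
        intro c hc
        rw [show n + 2 = (n + 1) + 1 from rfl, pow_succ, Nat.cast_mul, mul_comm ((p ^ (n + 1) : ℕ) : ℤ)]
        exact mul_dvd_mul_left _ hc
      exact ⟨key _ ha', key _ hb'⟩
  obtain ⟨x₁, y₁, hx₁, hy₁, h₁⟩ := hbase
  have hs₁ : Good 1 (x₁, y₁) :=
    ⟨by rw [pow_one]; exact hx₁, by rw [pow_one]; exact hy₁, fun a b h => by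
      simpa using h₁ a b h⟩
  choose f hfP hfQ using hstep
  let s : (n : ℕ) → {s // Good (n + 1) s} := fun n => Nat.rec ⟨_, hs₁⟩ f n
  let P : ℕ → E := fun n => Nat.casesOn n 0 fun m => (s m).1.1
  let Q : ℕ → E := fun n => Nat.casesOn n 0 fun m => (s m).1.2
  refine ⟨⟨P, Q, ?_, ?_, ?_, ?_, ?_, ?_⟩⟩
  · rintro (_ | n)
    · exact hx₁
    · exact hfP n (s n)
  · rintro (_ | n)
    · exact hy₁
    · exact hfQ n (s n)
  · rintro (_ | n)
    · exact nsmul_zero _
    · exact (s n).2.1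
  · rintro (_ | n)
    · exact nsmul_zero _
    · exact (s n).2.2.1
  · rintro (_ | n) a b h
    · simp
    · exact (s n).2.2.2 a b h
  · rintro (_ | n) T hT
    · exact ⟨0, 0, by simpa [P, Q] using hT⟩
    haveI := hfin (n + 1)
    haveI : NeZero (p ^ (n + 1)) := ⟨pow_ne_zero _ hp0⟩
    obtain ⟨⟨x, y⟩, hx, hy, hind⟩ := s n
    let g : ZMod (p ^ (n + 1)) × ZMod (p ^ (n + 1)) → {T : E // p ^ (n + 1) • T = 0} := fun c =>
      ⟨(c.1.val : ℤ) • (s n).1.1 + (c.2.val : ℤ) • (s n).1.2, by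
        rw [nsmul_add, smul_comm, (s n).2.1, smul_comm, (s n).2.2.1]; simp⟩
    have hg : Function.Injective g := by
      intro c c' h
      have h' : ((c.1.val : ℤ) - c'.1.val) • (s n).1.1 + ((c.2.val : ℤ) - c'.2.val) • (s n).1.2 = 0 := by
        have h'' := sub_eq_zero.mpr (congrArg Subtype.val h)
        rw [sub_zsmul, sub_zsmul]
        simp only [g] at h''
        rw [← h'']; abel
      obtain ⟨ha, hb⟩ := (s n).2.2.2 _ _ h'
      have key : ∀ u v : ZMod (p ^ (n + 1)), ((p ^ (n + 1) : ℕ) : ℤ) ∣ (u.val : ℤ) - v.val → u = v := by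
        intro u v huv
        rw [← ZMod.natCast_zmod_val u, ← ZMod.natCast_zmod_val v, ← Int.cast_natCast u.val,
          ← Int.cast_natCast v.val, ← sub_eq_zero, ← Int.cast_sub,
          ZMod.intCast_zmod_eq_zero_iff_dvd]
        exact huv
      exact Prod.ext (key _ _ ha) (key _ _ hb)
    have hbij : Function.Bijective g := (Nat.bijective_iff_injective_and_card g).mpr
      ⟨hg, by rw [Nat.card_prod, Nat.card_zmod, hcard, sq]⟩
    obtain ⟨c, hc⟩ := hbij.2 ⟨T, hT⟩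
    exact ⟨c.1.val, c.2.val, (congrArg Subtype.val hc).symm⟩

theorem maximalIdeal_pow_eq (k : ℕ) :
    IsLocalRing.maximalIdeal ℤ_[p] ^ k = Ideal.span {((p ^ k : ℕ) : ℤ_[p])} := by
  rw [PadicInt.maximalIdeal_eq_span_p, Ideal.span_singleton_pow, Nat.cast_pow]

theorem exists_padic_limit (a : ℕ → ℤ_[p])
    (ha : ∀ {k m}, k ≤ m → ((p ^ k : ℕ) : ℤ_[p]) ∣ a m - a k) :
    ∃ x, ∀ k, ((p ^ k : ℕ) : ℤ_[p]) ∣ x - a k := by
  obtain ⟨x, hx⟩ := IsPrecomplete.prec (I := IsLocalRing.maximalIdeal ℤ_[p]) inferInstance (f := a)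
    fun {k m} hkm => by
      rw [SModEq.sub_mem, smul_eq_mul, Ideal.mul_top, maximalIdeal_pow_eq,
        Ideal.mem_span_singleton, ← neg_sub, dvd_neg]
      exact ha hkm
  refine ⟨x, fun k => ?_⟩
  have h := hx k
  rw [SModEq.sub_mem, smul_eq_mul, Ideal.mul_top, maximalIdeal_pow_eq,
    Ideal.mem_span_singleton] at h
  rw [← neg_sub, dvd_neg]
  exact h

theorem padic_eq_of_forall_dvd {x y : ℤ_[p]} (h : ∀ k, ((p ^ k : ℕ) : ℤ_[p]) ∣ x - y) : x = y := by
  refine sub_eq_zero.1 (IsHausdorff.haus (I := IsLocalRing.maximalIdeal ℤ_[p]) inferInstance _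
    fun k => ?_)
  rw [SModEq.sub_mem, smul_eq_mul, Ideal.mul_top, sub_zero, maximalIdeal_pow_eq,
    Ideal.mem_span_singleton]
  exact h k

namespace TateBasis

variable (B : TateBasis E p)

/-- The point with the given coordinates at a layer. -/
def pt (n : ℕ) : (Fin 2 → ℤ_[p]) →+ E :=
  (ZMod.lift (p ^ n) ⟨zmultiplesHom E (B.P n), by
      rw [zmultiplesHom_apply, natCast_zsmul, B.killP]⟩).comp
      ((PadicInt.toZModPow (p := p) n).toAddMonoidHom.comp (Pi.evalAddMonoidHom (fun _ : Fin 2 => ℤ_[p]) 0)) +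
    (ZMod.lift (p ^ n) ⟨zmultiplesHom E (B.Q n), by
      rw [zmultiplesHom_apply, natCast_zsmul, B.killQ]⟩).comp
      ((PadicInt.toZModPow (p := p) n).toAddMonoidHom.comp (Pi.evalAddMonoidHom (fun _ : Fin 2 => ℤ_[p]) 1))

theorem pt_intCast (n : ℕ) (a b : ℤ) : B.pt n ![(a : ℤ_[p]), (b : ℤ_[p])] = a • B.P n + b • B.Q n := by
  simp [pt]

theorem natPow_dvd_iff {n : ℕ} {x : ℤ_[p]} :
    ((p ^ n : ℕ) : ℤ_[p]) ∣ x ↔ PadicInt.toZModPow n x = 0 := by
  rw [← RingHom.mem_ker, PadicInt.ker_toZModPow, Ideal.mem_span_singleton, Nat.cast_pow]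

theorem exists_int_approx (n : ℕ) (u : Fin 2 → ℤ_[p]) :
    ∃ a b : ℤ, ((p ^ n : ℕ) : ℤ_[p]) ∣ u 0 - a ∧ ((p ^ n : ℕ) : ℤ_[p]) ∣ u 1 - b ∧
      B.pt n u = a • B.P n + b • B.Q n := by
  haveI : NeZero (p ^ n) := ⟨pow_ne_zero _ hp.out.ne_zero⟩
  obtain ⟨a, ha⟩ := ZMod.intCast_surjective (PadicInt.toZModPow n (u 0))
  obtain ⟨b, hb⟩ := ZMod.intCast_surjective (PadicInt.toZModPow n (u 1))
  refine ⟨a, b, ?_, ?_, ?_⟩
  · rw [natPow_dvd_iff, map_sub, map_intCast, ha, sub_self]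
  · rw [natPow_dvd_iff, map_sub, map_intCast, hb, sub_self]
  · simp [pt, ← ha, ← hb]

theorem pt_eq_zero_iff {n : ℕ} {u : Fin 2 → ℤ_[p]} :
    B.pt n u = 0 ↔ ∀ i, ((p ^ n : ℕ) : ℤ_[p]) ∣ u i := by
  obtain ⟨a, b, ha, hb, e⟩ := B.exists_int_approx n u
  rw [e, Fin.forall_fin_two]
  constructor
  · intro h
    obtain ⟨ha', hb'⟩ := B.indep n a b h
    constructor
    · rw [← sub_add_cancel (u 0) a]
      exact dvd_add ha (by simpa using map_dvd (Int.castRingHom ℤ_[p]) ha')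
    · rw [← sub_add_cancel (u 1) b]
      exact dvd_add hb (by simpa using map_dvd (Int.castRingHom ℤ_[p]) hb')
  · rintro ⟨h0, h1⟩
    have key : ∀ (c : ℤ) (x : ℤ_[p]) (T : E), ((p ^ n : ℕ) : ℤ_[p]) ∣ x - c →
        ((p ^ n : ℕ) : ℤ_[p]) ∣ x → p ^ n • T = 0 → c • T = 0 := by
      intro c x T hc hx hT
      have hd : ((p ^ n : ℕ) : ℤ_[p]) ∣ (c : ℤ_[p]) := by simpa using dvd_sub hx hc
      rw [natPow_dvd_iff, map_intCast, ZMod.intCast_zmod_eq_zero_iff_dvd] at hd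
      obtain ⟨d, rfl⟩ := hd
      rw [mul_comm, mul_smul, natCast_zsmul, hT, zsmul_zero]
    rw [key a (u 0) _ ha h0 (B.killP n), key b (u 1) _ hb h1 (B.killQ n), add_zero]

theorem nsmul_pt_succ (n : ℕ) (u : Fin 2 → ℤ_[p]) : p • B.pt (n + 1) u = B.pt n u := by
  obtain ⟨a, b, ha, hb, e⟩ := B.exists_int_approx (n + 1) u
  rw [e, nsmul_add, smul_comm p a, smul_comm p b, B.stepP, B.stepQ, ← B.pt_intCast, eq_comm,
    ← sub_eq_zero, ← map_sub, B.pt_eq_zero_iff]
  have hd : ((p ^ n : ℕ) : ℤ_[p]) ∣ ((p ^ (n + 1) : ℕ) : ℤ_[p]) :=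
    map_dvd (Nat.castRingHom ℤ_[p]) (pow_dvd_pow p n.le_succ)
  rw [Fin.forall_fin_two]
  exact ⟨hd.trans ha, hd.trans hb⟩

theorem nsmul_pow_pt (n k : ℕ) (u : Fin 2 → ℤ_[p]) : p ^ k • B.pt (n + k) u = B.pt n u := by
  induction k with
  | zero => simp
  | succ k ih => rw [pow_succ, mul_nsmul', ← add_assoc, B.nsmul_pt_succ, ih]

theorem nsmul_pt (n : ℕ) (u : Fin 2 → ℤ_[p]) : p ^ n • B.pt n u = 0 := by
  obtain ⟨a, b, -, -, e⟩ := B.exists_int_approx n u
  rw [e, nsmul_add, smul_comm, B.killP, smul_comm, B.killQ]; simp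

theorem exists_pt (n : ℕ) {T : E} (hT : p ^ n • T = 0) : ∃ u, B.pt n u = T := by
  obtain ⟨a, b, rfl⟩ := B.span n T hT
  exact ⟨_, B.pt_intCast n a b⟩

theorem eq_of_forall_pt {u v : Fin 2 → ℤ_[p]} (h : ∀ n, B.pt n u = B.pt n v) : u = v := by
  funext i
  refine padic_eq_of_forall_dvd fun n => ?_
  exact (B.pt_eq_zero_iff (u := u - v)).mp (by rw [map_sub, h n, sub_self]) i

theorem pt_smul (n : ℕ) {x : ℤ_[p]} {a : ℤ} (ha : ((p ^ n : ℕ) : ℤ_[p]) ∣ x - a)
    (u : Fin 2 → ℤ_[p]) : B.pt n (x • u) = a • B.pt n u := by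
  rw [← map_zsmul, ← sub_eq_zero, ← map_sub, B.pt_eq_zero_iff]
  intro i
  have : (x • u - a • u) i = (x - a) * u i := by simp [sub_mul]
  rw [this]
  exact dvd_mul_of_dvd_left ha _

/-- An endomorphism of `E` acts on the coordinates by a matrix. -/
theorem exists_matrix (g : E →+ E) :
    ∃ M : Deformation.M2 ℤ_[p], ∀ n u, g (B.pt n u) = B.pt n (M *ᵥ u) := by
  have hc : ∀ (n : ℕ) (j : Fin 2), ∃ c, B.pt n c = g (B.pt n (Pi.single j 1)) := fun n j =>
    B.exists_pt n (by rw [← map_nsmul, B.nsmul_pt, map_zero])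
  choose c hc using hc
  have hcompat : ∀ (j i : Fin 2) {k m : ℕ}, k ≤ m →
      ((p ^ k : ℕ) : ℤ_[p]) ∣ c m j i - c k j i := by
    intro j i k m hkm
    obtain ⟨d, rfl⟩ := Nat.exists_eq_add_of_le hkm
    refine (B.pt_eq_zero_iff (u := c (k + d) j - c k j)).mp ?_ i
    rw [map_sub, hc, ← B.nsmul_pow_pt k d, hc, ← map_nsmul, B.nsmul_pow_pt, sub_self]
  choose x hx using fun j i => exists_padic_limit (fun k => c k j i)
    (fun h => hcompat j i h)
  refine ⟨Matrix.of fun i j => x j i, fun n u => ?_⟩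
  obtain ⟨a, b, ha, hb, -⟩ := B.exists_int_approx n u
  have hcol : ∀ j, B.pt n (fun i => x j i) = g (B.pt n (Pi.single j 1)) := fun j => by
    rw [← hc, ← sub_eq_zero, ← map_sub, B.pt_eq_zero_iff]
    exact fun i => hx j i n
  have hu : u = u 0 • Pi.single 0 1 + u 1 • Pi.single 1 1 := by
    ext i; fin_cases i <;> simp
  have hM : (Matrix.of fun i j => x j i) *ᵥ u =
      u 0 • (fun i => x 0 i) + u 1 • (fun i => x 1 i) := by
    ext i; simp [Matrix.mulVec, dotProduct]; ring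
  rw [hM]
  conv_lhs => rw [hu]
  rw [map_add, B.pt_smul n ha, B.pt_smul n hb, map_add, map_zsmul, map_zsmul, map_add,
    B.pt_smul n ha, B.pt_smul n hb, hcol, hcol]

theorem matrix_ext {M M' : Deformation.M2 ℤ_[p]} (h : ∀ n u, B.pt n (M *ᵥ u) = B.pt n (M' *ᵥ u)) :
    M = M' := by
  refine Matrix.ext_of_mulVec_single fun j => ?_
  exact B.eq_of_forall_pt fun n => h n _

variable {G : Type*} [Monoid G] [DistribMulAction G E]

/-- The matrices of a group acting on `E`. -/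
def tateRep : G →* Deformation.M2 ℤ_[p] where
  toFun σ := (B.exists_matrix (DistribSMul.toAddMonoidHom E σ)).choose
  map_one' := B.matrix_ext fun n u => by
    rw [← (B.exists_matrix (DistribSMul.toAddMonoidHom E (1 : G))).choose_spec, Matrix.one_mulVec]
    exact one_smul G _
  map_mul' σ τ := B.matrix_ext fun n u => by
    rw [← (B.exists_matrix (DistribSMul.toAddMonoidHom E (σ * τ))).choose_spec,
      ← Matrix.mulVec_mulVec, ← (B.exists_matrix (DistribSMul.toAddMonoidHom E σ)).choose_spec,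
      ← (B.exists_matrix (DistribSMul.toAddMonoidHom E τ)).choose_spec]
    exact mul_smul σ τ _

theorem smul_pt (σ : G) (n : ℕ) (u : Fin 2 → ℤ_[p]) :
    σ • B.pt n u = B.pt n (B.tateRep σ *ᵥ u) :=
  (B.exists_matrix (DistribSMul.toAddMonoidHom E σ)).choose_spec n u

/-- A matrix killing every layer is zero. -/
theorem eq_zero_of_pt {M : Deformation.M2 ℤ_[p]} (h : ∀ n u, B.pt n (M *ᵥ u) = 0) : M = 0 :=
  B.matrix_ext fun n u => by rw [h, Matrix.zero_mulVec, map_zero]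

end TateBasis

end Abstract

variable {W : WeierstrassCurve ℤ}

theorem isElliptic_rat (hW : W.Δ ≠ 0) : WeierstrassCurve.IsElliptic (W.map (Int.castRingHom ℚ)) :=
  ⟨by rw [WeierstrassCurve.map_Δ]; exact isUnit_iff_ne_zero.mpr (by simpa using hW)⟩

theorem card_bar_torsion (hW : W.Δ ≠ 0) {m : ℕ} (hm : m ≠ 0) :
    Nat.card {T : (barCurve W).Point // m • T = 0} = m ^ 2 := by
  haveI := isElliptic_rat hW
  rw [← Torsion.card_torsionBy_rat (W.map (Int.castRingHom ℚ)) hm]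
  exact Nat.card_congr (Equiv.subtypeEquivRight fun T => Torsion.mem_torsionBy_iff_nsmul.symm)

/-- The Tate module of a curve over `ℚ` has a basis. -/
theorem exists_tateBasis_curve (hW : W.Δ ≠ 0) (p : ℕ) [hp : Fact p.Prime] :
    Nonempty (TateBasis (barCurve W).Point p) := by
  haveI := isElliptic_rat hW
  haveI := Torsion.isElliptic_baseChange (K := QQb) (W := W.map (Int.castRingHom ℚ))
  haveI := Torsion.finite_torsionBy_rat (W.map (Int.castRingHom ℚ)) hp.out.ne_zero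
  refine exists_tateBasis (fun n => card_bar_torsion hW (pow_ne_zero n hp.out.ne_zero)) ?_
  let V := Submodule.torsionBy ℤ ((W.map (Int.castRingHom ℚ))⁄(AlgebraicClosure ℚ)).Point p
  haveI : Module.Finite (ZMod p) V := Module.Finite.of_finite
  let b := Module.finBasisOfFinrankEq (ZMod p) V
    (Torsion.finrank_torsionBy (Nat.cast_ne_zero.mpr hp.out.ne_zero))
  refine ⟨(b 0 : V), (b 1 : V), Torsion.mem_torsionBy_iff_nsmul.mp (b 0).2,
    Torsion.mem_torsionBy_iff_nsmul.mp (b 1).2, fun u v h => ?_⟩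
  have h' : (u : ZMod p) • b 0 + (v : ZMod p) • b 1 = 0 := by
    rw [Int.cast_smul_eq_zsmul, Int.cast_smul_eq_zsmul]
    exact Subtype.ext h
  have hl := Fintype.linearIndependent_iff.mp b.linearIndependent ![(u : ZMod p), (v : ZMod p)]
    (by simpa [Fin.sum_univ_two] using h')
  exact ⟨(ZMod.intCast_zmod_eq_zero_iff_dvd u p).mp (hl 0),
    (ZMod.intCast_zmod_eq_zero_iff_dvd v p).mp (hl 1)⟩

/-- The Tate module representation is continuous. -/
theorem matCts_tateRep (hW : W.Δ ≠ 0) {p : ℕ} [hp : Fact p.Prime]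
    (B : TateBasis (barCurve W).Point p) :
    Deformation.MatCts (B.tateRep : GG →* Deformation.M2 ℤ_[p]) := by
  intro n
  haveI := isElliptic_rat hW
  haveI := Torsion.finite_torsionBy_rat (W.map (Int.castRingHom ℚ)) (pow_ne_zero n hp.out.ne_zero)
  haveI : Algebra.IsAlgebraic ℚ (AlgebraicClosure ℚ) := AlgebraicClosure.isAlgebraic ℚ
  obtain ⟨L, hL, h⟩ := Torsion.exists_finite_level_torsionBy (S := ℚ)
    (W := W.map (Int.castRingHom ℚ)) (K := AlgebraicClosure ℚ) (n := p ^ n)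
  refine ⟨L, hL, fun σ hσ i j => ?_⟩
  have h1 : B.pt n ((B.tateRep σ - 1) *ᵥ Pi.single j 1) = 0 := by
    rw [Matrix.sub_mulVec, Matrix.one_mulVec, map_sub, ← B.smul_pt, sub_eq_zero]
    exact congrArg Subtype.val (h σ hσ ⟨_, Torsion.mem_torsionBy_iff_nsmul.mpr (B.nsmul_pt n _)⟩)
  have h2 := (B.pt_eq_zero_iff.mp h1 : ∀ i, _) i
  rw [Matrix.mulVec_single_one, Matrix.col_apply] at h2
  refine Ideal.mem_of_dvd _ h2 ?_
  rw [Nat.cast_pow]
  refine Ideal.pow_mem_pow ?_ n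
  rw [PadicInt.maximalIdeal_eq_span_p]; exact Ideal.mem_span_singleton_self _

end FLTAgent.LevelMatch
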